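import Fermat.Agent.Lifting.Residual.Dihedral
import Fermat.Agent.RT.FreyResidual

/-!
# The residual representation `E[p]` of a semistable curve: S56 hypotheses

For an integral model `W`, semistable, and an odd prime `p` with `W.ModRepIsIrreducible p`:
absolute irreducibility, oddness, cyclotomic determinant, splitting over `𝔽_{p²}`, and
irreducibility on every subgroup of index `2` (`torsion_tw`).
-/

set_option autoImplicit false
set_option linter.style.haveILetI false

noncomputable section

open WeierstrassCurve.Affine.Point (GaloisRepIsIrreducible galoisRepModuleEnd)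
open scoped WeierstrassCurve.Affine TensorProduct
open Polynomial

namespace Fermat.Agent.Lifting.Residual

local notation "ℚ̄" => AlgebraicClosure ℚ
local notation "Γℚ" => (AlgebraicClosure ℚ ≃ₐ[ℚ] AlgebraicClosure ℚ)

variable (W : WeierstrassCurve ℤ) (p : ℕ) [hp : Fact p.Prime]

/-- The residual representation on `E[p]`. -/
abbrev torsRep (hΔ : W.Δ ≠ 0) : ResidualGaloisRep (ZMod p) :=
  haveI := EC.Reducible.isElliptic_rat W hΔ
  EC.torsionRepRat (W.map (Int.castRingHom ℚ)) p

variable {W} {p} (hΔ : W.Δ ≠ 0)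

omit hp in
theorem two_ne_zero_of_odd [Fact p.Prime] (hp2 : p ≠ 2) : (2 : ZMod p) ≠ 0 := by
  intro h
  have h' : ((2 : ℕ) : ZMod p) = 0 := by exact_mod_cast h
  exact hp2 ((Nat.prime_dvd_prime_iff_eq (Fact.out : p.Prime) Nat.prime_two).1
    ((ZMod.natCast_eq_zero_iff 2 p).1 h'))

theorem torsRep_isIrreducible (hirr : W.ModRepIsIrreducible p) :
    (torsRep W p hΔ).IsIrreducible :=
  fun U hU => hirr.2 U fun σ x hx => hU σ x hx

theorem torsRep_isOdd : (torsRep W p hΔ).IsOdd :=
  EC.residualGaloisRepOf_isOdd hΔ p _ _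

theorem torsRep_isAbsolutelyIrreducible (hp2 : p ≠ 2) (hirr : W.ModRepIsIrreducible p) :
    (torsRep W p hΔ).IsAbsolutelyIrreducible :=
  Density.isAbsolutelyIrreducible_of_odd _ (two_ne_zero_of_odd hp2)
    (torsRep_isIrreducible hΔ hirr) (torsRep_isOdd hΔ)

theorem torsRep_det (σ : Γℚ) :
    LinearMap.det ((torsRep W p hΔ).ρ σ) =
      (haveI : NeZero p := ⟨hp.out.ne_zero⟩; (EC.cycloChar p σ : ZMod p)) := by
  haveI : NeZero p := ⟨hp.out.ne_zero⟩
  exact EC.det_galoisRepModuleEnd_eq_cycloChar hΔ p σ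

theorem torsRep_baseChangeAlong_isAbsolutelyIrreducible (hp2 : p ≠ 2)
    (hirr : W.ModRepIsIrreducible p) {k : Type} [Field k] (f : ZMod p →+* k) :
    ((torsRep W p hΔ).baseChangeAlong f).IsAbsolutelyIrreducible :=
  RT.isAbsolutelyIrreducible_baseChangeAlong f _ (torsRep_isAbsolutelyIrreducible hΔ hp2 hirr)

/-- Over a field with `p ^ 2` elements all characteristic polynomials split. -/
theorem torsRep_split (hp2 : p ≠ 2) {k : Type} [Field k] [Finite k] (hk : Nat.card k = p ^ 2)
    (f : ZMod p →+* k) (σ : Γℚ) :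
    ∃ α β : k,
      LinearMap.charpoly (((torsRep W p hΔ).baseChangeAlong f).ρ σ) = (X - C α) * (X - C β) := by
  rw [RT.charpoly_baseChangeAlong]
  let b := Module.finBasisOfFinrankEq (ZMod p) (torsRep W p hΔ).V (torsRep W p hΔ).finrank_eq
  rw [← LinearMap.charpoly_toMatrix _ b, Matrix.charpoly_fin_two]
  simp only [Polynomial.map_sub, Polynomial.map_add, Polynomial.map_mul, Polynomial.map_pow,
    Polynomial.map_X, Polynomial.map_C]
  exact RT.exists_roots_of_natCard_sq hp2 hk f _ _

theorem torsRep_baseChange_detIsCyclotomic {k : Type} [Field k] (f : ZMod p →+* k) :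
    (GaloisRepAdic.ofResidualGaloisRep ((torsRep W p hΔ).baseChangeAlong f)).DetIsCyclotomic p := by
  haveI : NeZero p := ⟨hp.out.ne_zero⟩
  have hp0 : (p : k) = 0 := by rw [← map_natCast f, ZMod.natCast_self, map_zero]
  refine ⟨by rw [hp0]; exact Submodule.zero_mem _, fun n σ a ha => ?_⟩
  rcases Nat.eq_zero_or_pos n with rfl | hn
  · simp
  obtain ⟨ζ, hζ⟩ := EC.exists_primitiveRoot_qbar p
  have hdvd : p ∣ p ^ n := dvd_pow_self _ hn.ne'
  have hσζ : σ ζ = ζ ^ a := ha ζ (by
    obtain ⟨m, hm⟩ := hdvd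
    rw [hm, pow_mul, hζ.pow_eq_one, one_pow])
  have hc := EC.cycloChar_eq_of_apply_eq_pow p σ hζ hσζ
  have hdet : LinearMap.det ((GaloisRepAdic.ofResidualGaloisRep
      ((torsRep W p hΔ).baseChangeAlong f)).ρ σ) = f (LinearMap.det ((torsRep W p hΔ).ρ σ)) := by
    letI : Algebra (ZMod p) k := f.toAlgebra
    show LinearMap.det (((torsRep W p hΔ).ρ σ).baseChange k) = _
    exact LinearMap.det_baseChange _
  rw [hdet, torsRep_det, hc, map_natCast, sub_self]
  exact Submodule.zero_mem _

/-- **The Taylor–Wiles hypothesis of S56**: irreducible on every subgroup of index `2`. -/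
theorem torsion_tw (hss : W.IsSemistableModel) (hp2 : p ≠ 2) (hirr : W.ModRepIsIrreducible p)
    {k : Type} [Field k] (f : ZMod p →+* k)
    (K : Type) [Field K] [Algebra k K] (G : Subgroup Γℚ) (hG : G.index = 2)
    (V : Submodule K (((torsRep W p hΔ).baseChangeAlong f).baseChange K).V)
    (hV : ∀ σ ∈ G, ∀ x ∈ V, (((torsRep W p hΔ).baseChangeAlong f).baseChange K).ρ σ x ∈ V) :
    V = ⊥ ∨ V = ⊤ := by
  have habs := torsRep_baseChangeAlong_isAbsolutelyIrreducible hΔ hp2 hirr f
  have hpk : (p : k) = 0 := by rw [← map_natCast f, ZMod.natCast_self, map_zero]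
  by_cases hu : ∃ σ : Γℚ, (((torsRep W p hΔ).baseChangeAlong f).ρ σ - 1) *
      (((torsRep W p hΔ).baseChangeAlong f).ρ σ - 1) = 0 ∧
      ((torsRep W p hΔ).baseChangeAlong f).ρ σ ≠ 1
  · exact RT.eq_bot_or_top_of_index_two hp2 hpk _ habs hu K G hG V hV
  letI : Algebra (ZMod p) k := f.toAlgebra
  let B : Module.End (ZMod p) (EC.Reducible.Tors W p) →+*
      Module.End K (K ⊗[k] (k ⊗[ZMod p] EC.Reducible.Tors W p)) :=
    (Module.End.baseChangeHom k K (k ⊗[ZMod p] EC.Reducible.Tors W p)).toRingHom.comp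
      (Module.End.baseChangeHom (ZMod p) k (EC.Reducible.Tors W p)).toRingHom
  have hBap : ∀ X, B X = (X.baseChange k).baseChange K := fun _ => rfl
  have hnu : NoUnipotent W p := by
    intro σ hσ
    by_contra h1
    refine hu ⟨σ, ?_, fun h => h1 (LinearMap.ext fun v => ?_)⟩
    · show ((rep W p σ).baseChange k - 1) * ((rep W p σ).baseChange k - 1) = 0
      rw [← LinearMap.baseChange_one (R := ZMod p) (A := k), ← LinearMap.baseChange_sub,
        ← LinearMap.baseChange_mul, hσ, LinearMap.baseChange_zero]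
    · have h' := LinearMap.congr_fun
        (show (rep W p σ).baseChange k = 1 from h) ((1 : k) ⊗ₜ[ZMod p] v)
      rw [LinearMap.baseChange_tmul, Module.End.one_apply] at h'
      exact RT.tmul_one_injective h'
  by_contra hne
  rw [not_or] at hne
  change Submodule K (K ⊗[k] (k ⊗[ZMod p] EC.Reducible.Tors W p)) at V
  obtain ⟨v, hvV, hv0⟩ := (Submodule.ne_bot_iff V).mp hne.1
  have hU : Module.finrank K (K ⊗[k] (k ⊗[ZMod p] EC.Reducible.Tors W p)) = 2 :=
    (((torsRep W p hΔ).baseChangeAlong f).baseChange K).finrank_eq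
  haveI : Module.Finite K (K ⊗[k] (k ⊗[ZMod p] EC.Reducible.Tors W p)) :=
    Module.finite_of_finrank_eq_succ hU
  haveI := EC.Reducible.finiteDimensional_torsion (p := p) hΔ
  have hline : V = Submodule.span K {v} := by
    symm
    refine Submodule.eq_of_le_of_finrank_le ((Submodule.span_singleton_le_iff_mem _ _).mpr hvV) ?_
    rw [finrank_span_singleton hv0]
    have := Submodule.finrank_lt hne.2
    omega
  refine false_of_stable_line hΔ hss hp2 hnu hU ((algebraMap k K).comp f) B ?_ ?_ ?_ G hG hv0 ?_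
  · intro X Y hXY
    refine LinearMap.ext fun x => ?_
    have h := LinearMap.congr_fun hXY ((1 : K) ⊗ₜ[k] ((1 : k) ⊗ₜ[ZMod p] x))
    simp only [hBap, LinearMap.baseChange_tmul] at h
    exact RT.tmul_one_injective (RT.tmul_one_injective h)
  · intro X
    rw [hBap, LinearMap.det_baseChange, LinearMap.det_baseChange]
    rfl
  · intro u hu0 hst
    rcases Density.baseChange_isIrreducible _ habs K (Submodule.span K {u}) (fun σ x hx => by
        obtain ⟨c, rfl⟩ := Submodule.mem_span_singleton.mp hx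
        obtain ⟨d, hd⟩ := hst σ
        rw [map_smul]
        refine Submodule.smul_mem _ c (Submodule.mem_span_singleton.mpr ⟨d, ?_⟩)
        exact hd.symm) with h | h
    · exact hu0 (Submodule.span_singleton_eq_bot.mp h)
    · have h2 : (2 : ℕ) = 1 := by
        rw [← finrank_span_singleton (K := K) hu0]
        rw [show Submodule.span K {u} = ⊤ from h, finrank_top]
        exact hU.symm
      omega
  · intro σ hσ
    obtain ⟨c, hc⟩ := Submodule.mem_span_singleton.mp
      (show B (rep W p σ) v ∈ Submodule.span K {v} from hline ▸ hV σ hσ v hvV)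
    exact ⟨c, hc.symm⟩

end Fermat.Agent.Lifting.Residual
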