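import Fermat.Prelude.Def_GaloisRep_Residual
import Mathlib.LinearAlgebra.Charpoly.ToMatrix
import Mathlib.GroupTheory.Index
import Mathlib.FieldTheory.IsAlgClosed.Basic

/-!
# An element of determinant `-1` and non-zero trace

Over an algebraically closed field of characteristic not `2`: an irreducible two-dimensional
representation with some determinant `-1`, irreducible on every subgroup of index `2`, has an
element of determinant `-1` and non-zero trace. Otherwise the image would normalise, up to a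
scalar, a non-scalar endomorphism of trace `0`.
-/

set_option autoImplicit false

noncomputable section

open Polynomial

namespace Fermat.Agent.Lifting.Residual

local notation "Γℚ" => (AlgebraicClosure ℚ ≃ₐ[ℚ] AlgebraicClosure ℚ)

variable {k : Type} [Field k] (ρ : ResidualGaloisRep k)

/-- Cayley–Hamilton in dimension two. -/
theorem mul_self_eq_trace_det (X : Module.End k ρ.V) :
    X * X = LinearMap.trace k ρ.V X • X - LinearMap.det X • (1 : Module.End k ρ.V) := by
  let b := Module.finBasisOfFinrankEq k ρ.V ρ.finrank_eq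
  have h := LinearMap.aeval_self_charpoly X
  rw [← LinearMap.charpoly_toMatrix X b, Matrix.charpoly_fin_two,
    ← LinearMap.trace_eq_matrix_trace, LinearMap.det_toMatrix] at h
  simp only [map_sub, map_add, map_mul, map_pow, Polynomial.aeval_X, Polynomial.aeval_C,
    Algebra.algebraMap_eq_smul_one, smul_mul_assoc, one_mul] at h
  rw [← sub_eq_zero, ← h, pow_two]
  abel

/-- The commutant of a non-zero endomorphism of trace `0`. -/
theorem exists_eq_add_smul_of_commute (h2 : (2 : k) ≠ 0) (N X : Module.End k ρ.V) (hN : N ≠ 0)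
    (htr : LinearMap.trace k ρ.V N = 0) (hcomm : X * N = N * X) :
    ∃ a c : k, X = a • (1 : Module.End k ρ.V) + c • N := by
  obtain ⟨v, hv⟩ : ∃ v, LinearIndependent k ![v, N v] := by
    by_contra! hdep
    let b := Module.finBasisOfFinrankEq k ρ.V ρ.finrank_eq
    have hsc : ∀ v, v ≠ 0 → ∃ c : k, c • v = N v := by
      intro v hv
      by_contra! hc
      exact hdep v ((LinearIndependent.pair_iff' hv).2 hc)
    obtain ⟨c₀, h₀⟩ := hsc (b 0) (b.ne_zero 0)
    obtain ⟨c₁, h₁⟩ := hsc (b 1) (b.ne_zero 1)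
    have hne : b 0 + b 1 ≠ 0 := fun h => by
      have h' := congrArg (fun x => b.repr x 0) h
      simp at h'
    obtain ⟨c, hc⟩ := hsc _ hne
    rw [map_add, ← h₀, ← h₁] at hc
    have hr0 := congrArg (fun x => b.repr x 0) hc
    have hr1 := congrArg (fun x => b.repr x 1) hc
    simp at hr0 hr1
    rw [LinearMap.trace_eq_matrix_trace k b, Matrix.trace_fin_two] at htr
    simp [LinearMap.toMatrix_apply, ← h₀, ← h₁, ← hr0, ← hr1] at htr
    have hc0 : c = 0 := by
      have : (2 : k) * c = 0 := by linear_combination htr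
      exact (mul_eq_zero.1 this).resolve_left h2
    refine hN (b.ext fun i => ?_)
    fin_cases i
    · simp [← h₀, ← hr0, hc0]
    · simp [← h₁, ← hr1, hc0]
  let b := basisOfLinearIndependentOfCardEqFinrank hv (by simp [ρ.finrank_eq])
  have hb0 : b 0 = v := by simp [b]
  have hb1 : b 1 = N v := by simp [b]
  refine ⟨b.repr (X v) 0, b.repr (X v) 1, b.ext fun i => ?_⟩
  have hXv : X v = b.repr (X v) 0 • v + b.repr (X v) 1 • N v := by
    conv_lhs => rw [← b.sum_repr (X v), Fin.sum_univ_two, hb0, hb1]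
  fin_cases i
  · simpa [hb0] using hXv
  · have h := LinearMap.congr_fun hcomm v
    rw [Module.End.mul_apply, Module.End.mul_apply] at h
    simp only [Fin.mk_one, hb1, LinearMap.add_apply, LinearMap.smul_apply, Module.End.one_apply]
    rw [h]
    conv_lhs => rw [hXv, map_add, map_smul, map_smul]

/-- No non-zero endomorphism of trace `0` is normalised up to scalars by the image. -/
theorem false_of_quasiCentral [IsAlgClosed k] (h2 : (2 : k) ≠ 0) (hirr : ρ.IsIrreducible)
    (htw : ∀ G : Subgroup Γℚ, G.index = 2 → ∀ V : Submodule k ρ.V,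
      (∀ σ ∈ G, ∀ x ∈ V, ρ.ρ σ x ∈ V) → V = ⊥ ∨ V = ⊤)
    {N : Module.End k ρ.V} (hN : N ≠ 0) (htr : LinearMap.trace k ρ.V N = 0) {D : k}
    (hsq : N * N = D • (1 : Module.End k ρ.V))
    (hb : ∀ σ : Γℚ, ∃ b : k, ρ.ρ σ * N = b • (N * ρ.ρ σ)) : False := by
  have : Nontrivial ρ.V := Module.nontrivial_of_finrank_eq_succ ρ.finrank_eq
  obtain ⟨s, hs⟩ := IsAlgClosed.exists_eq_mul_self D
  have hscalar : ∀ t : k, N = t • (1 : Module.End k ρ.V) → False := by
    intro t ht
    rw [ht, map_smul, LinearMap.trace_one, ρ.finrank_eq, smul_eq_mul, mul_eq_zero] at htr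
    rcases htr with h | h
    · exact hN (by rw [ht, h, zero_smul])
    · exact h2 (by exact_mod_cast h)
  set V : Submodule k ρ.V := LinearMap.ker (N - s • (1 : Module.End k ρ.V)) with hV
  have hmem : ∀ x, x ∈ V ↔ N x = s • x := fun x => by
    simp [hV, sub_eq_zero]
  have hVne : V ≠ ⊥ := by
    intro h
    refine hscalar (-s) (LinearMap.ext fun x => ?_)
    have hx : N x + s • x ∈ V := by
      have hNN : N (N x) = D • x := by
        simpa using LinearMap.congr_fun hsq x
      rw [hmem, map_add, map_smul, hNN, smul_add, smul_smul, ← hs, add_comm]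
    rw [h, Submodule.mem_bot, add_eq_zero_iff_eq_neg] at hx
    simpa using hx
  have hVtop : V ≠ ⊤ := fun h => hscalar s (LinearMap.ext fun x => by
    simpa using (hmem x).1 (h ▸ Submodule.mem_top))
  have hnot : ¬ (V = ⊥ ∨ V = ⊤) := by tauto
  have hzero : ∀ σ : Γℚ, ρ.ρ σ ≠ 0 := by
    intro σ h
    have h1 : ρ.ρ (σ⁻¹ * σ) = 0 := by rw [map_mul, h, mul_zero]
    rw [inv_mul_cancel, map_one] at h1
    exact one_ne_zero h1
  by_cases hD : D = 0
  · refine hnot (hirr V fun σ x hx => ?_)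
    obtain ⟨b, hσ⟩ := hb σ
    have hs0 : s = 0 := by rwa [hD, eq_comm, mul_self_eq_zero] at hs
    rw [hmem, hs0, zero_smul] at hx ⊢
    rcases eq_or_ne b 0 with rfl | hb0
    · exfalso
      rw [zero_smul] at hσ
      apply hN
      calc N = ρ.ρ (σ⁻¹ * σ) * N := by rw [inv_mul_cancel, map_one, one_mul]
        _ = 0 := by rw [map_mul, mul_assoc, hσ, mul_zero]
    · have h := LinearMap.congr_fun hσ x
      simp only [Module.End.mul_apply, LinearMap.smul_apply, hx, map_zero] at h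
      exact (smul_eq_zero.1 h.symm).resolve_left hb0
  have hbsq : ∀ σ : Γℚ, ρ.ρ σ * N = N * ρ.ρ σ ∨ ρ.ρ σ * N = -(N * ρ.ρ σ) := by
    intro σ
    obtain ⟨b, hσ⟩ := hb σ
    have h : (b * b * D) • ρ.ρ σ = D • ρ.ρ σ := by
      have h' : ρ.ρ σ * (N * N) = (b * b) • (N * N * ρ.ρ σ) := by
        rw [← mul_assoc, hσ, smul_mul_assoc, mul_assoc N, hσ, mul_smul_comm, smul_smul,
          ← mul_assoc]
      rw [hsq, mul_smul_comm, mul_one, smul_mul_assoc, one_mul, smul_smul] at h'
      exact h'.symm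
    have hb2 : b * b = 1 := by
      have := smul_left_injective k (hzero σ) h
      exact mul_right_cancel₀ hD (by simpa using this)
    rcases mul_self_eq_one_iff.1 hb2 with rfl | rfl
    · exact Or.inl (by simpa using hσ)
    · exact Or.inr (by simpa using hσ)
  have hstab : ∀ σ : Γℚ, ρ.ρ σ * N = N * ρ.ρ σ → ∀ x ∈ V, ρ.ρ σ x ∈ V := by
    intro σ hσ x hx
    rw [hmem] at hx ⊢
    have h := LinearMap.congr_fun hσ x
    rw [Module.End.mul_apply, Module.End.mul_apply, hx, map_smul] at h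
    exact h.symm
  let H : Subgroup Γℚ :=
    { carrier := {σ | ρ.ρ σ * N = N * ρ.ρ σ}
      one_mem' := by simp
      mul_mem' := fun {a b} (ha : _ = _) (hb : _ = _) => by
        show ρ.ρ (a * b) * N = N * ρ.ρ (a * b)
        rw [map_mul, mul_assoc, hb, ← mul_assoc, ha, mul_assoc]
      inv_mem' := fun {a} (ha : _ = _) => by
        show ρ.ρ a⁻¹ * N = N * ρ.ρ a⁻¹
        calc ρ.ρ a⁻¹ * N = ρ.ρ a⁻¹ * N * ρ.ρ (a * a⁻¹) := by
              rw [mul_inv_cancel, map_one, mul_one]
          _ = ρ.ρ a⁻¹ * (ρ.ρ a * N) * ρ.ρ a⁻¹ := by rw [map_mul, ha]; noncomm_ring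
          _ = N * ρ.ρ a⁻¹ := by
              rw [← mul_assoc (ρ.ρ a⁻¹), ← map_mul, inv_mul_cancel, map_one, one_mul] }
  by_cases hall : ∀ σ, σ ∈ H
  · exact hnot (hirr V fun σ => hstab σ (hall σ))
  obtain ⟨a, ha⟩ := not_forall.1 hall
  have ha' : ρ.ρ a * N = -(N * ρ.ρ a) := (hbsq a).resolve_left ha
  refine hnot (htw H (Subgroup.index_eq_two_iff_exists_notMem_and.2 ⟨a, ha, fun g => ?_⟩) V
    fun σ hσ => hstab σ hσ)
  rcases hbsq g with h | h
  · exact Or.inr h
  · left
    show ρ.ρ (g * a) * N = N * ρ.ρ (g * a)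
    rw [map_mul, mul_assoc, ha', mul_neg, ← mul_assoc, h, neg_mul, neg_neg, mul_assoc]

/-- Some element has determinant `-1` and non-zero trace. -/
theorem exists_det_neg_one_trace_ne_zero [IsAlgClosed k] (h2 : (2 : k) ≠ 0)
    (hirr : ρ.IsIrreducible)
    (htw : ∀ G : Subgroup Γℚ, G.index = 2 → ∀ V : Submodule k ρ.V,
      (∀ σ ∈ G, ∀ x ∈ V, ρ.ρ σ x ∈ V) → V = ⊥ ∨ V = ⊤)
    (hc : ∃ c : Γℚ, LinearMap.det (ρ.ρ c) = -1) :
    ∃ g : Γℚ, LinearMap.det (ρ.ρ g) = -1 ∧ LinearMap.trace k ρ.V (ρ.ρ g) ≠ 0 := by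
  by_contra! hall
  obtain ⟨c, hc⟩ := hc
  have hsq : ∀ g, LinearMap.det (ρ.ρ g) = -1 → ρ.ρ g * ρ.ρ g = 1 := fun g hg => by
    rw [mul_self_eq_trace_det, hall g hg, hg]
    simp
  have hinv : ∀ h, LinearMap.det (ρ.ρ h) = 1 → ρ.ρ (c * h * c) = ρ.ρ h⁻¹ := by
    intro h hh
    have h1 : ρ.ρ (c * h) * ρ.ρ (c * h) = 1 := hsq _ (by rw [map_mul, map_mul, hc, hh, mul_one])
    calc ρ.ρ (c * h * c) = ρ.ρ (c * h * c) * ρ.ρ (h * h⁻¹) := by
          rw [mul_inv_cancel, map_one, mul_one]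
      _ = (ρ.ρ (c * h) * ρ.ρ (c * h)) * ρ.ρ h⁻¹ := by simp only [map_mul, mul_assoc]
      _ = ρ.ρ h⁻¹ := by rw [h1, one_mul]
  have hdetinv : ∀ x : Γℚ, LinearMap.det (ρ.ρ x⁻¹) * LinearMap.det (ρ.ρ x) = 1 := fun x => by
    rw [← map_mul, ← map_mul, inv_mul_cancel, map_one, map_one]
  have hcomm : ∀ x y, LinearMap.det (ρ.ρ x) = 1 → LinearMap.det (ρ.ρ y) = 1 →
      ρ.ρ x * ρ.ρ y = ρ.ρ y * ρ.ρ x := by
    intro x y hx hy
    have hx' : LinearMap.det (ρ.ρ x⁻¹) = 1 := by simpa [hx] using hdetinv x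
    have hy' : LinearMap.det (ρ.ρ y⁻¹) = 1 := by simpa [hy] using hdetinv y
    have e1 := hinv (x⁻¹ * y⁻¹) (by rw [map_mul, map_mul, hx', hy', mul_one])
    have e2 : ρ.ρ (c * (x⁻¹ * y⁻¹) * c) = ρ.ρ (c * x⁻¹ * c) * ρ.ρ (c * y⁻¹ * c) := by
      rw [← map_mul]
      have e3 : c * x⁻¹ * c * (c * y⁻¹ * c) = c * x⁻¹ * (c * c) * (y⁻¹ * c) := by group
      rw [e3]
      simp only [map_mul, mul_assoc]
      rw [← mul_assoc (ρ.ρ c) (ρ.ρ c), hsq c hc, one_mul]
    rw [e1, hinv _ hx', hinv _ hy', mul_inv_rev, inv_inv, inv_inv, map_mul] at e2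
    exact e2.symm
  by_cases hscal : ∀ h, LinearMap.det (ρ.ρ h) = 1 →
      ∃ l : k, ρ.ρ h = l • (1 : Module.End k ρ.V)
  · refine false_of_quasiCentral ρ h2 hirr htw (N := ρ.ρ c) (D := 1) ?_ (hall c hc)
      (by rw [hsq c hc, one_smul]) fun σ => ?_
    · intro h
      have h0 := hsq c hc
      rw [h, mul_zero] at h0
      have : Nontrivial ρ.V := Module.nontrivial_of_finrank_eq_succ ρ.finrank_eq
      exact zero_ne_one h0
    obtain ⟨l, hl⟩ := hscal (σ * c * σ⁻¹ * c) (by
      have := hdetinv σ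
      simp only [map_mul, hc]
      linear_combination this)
    refine ⟨l, ?_⟩
    calc ρ.ρ σ * ρ.ρ c = ρ.ρ (σ * c * σ⁻¹) * (ρ.ρ c * ρ.ρ c) * ρ.ρ σ := by
          rw [hsq c hc, mul_one, ← map_mul, ← map_mul]
          group
      _ = l • (ρ.ρ c * ρ.ρ σ) := by
          rw [← mul_assoc (ρ.ρ (σ * c * σ⁻¹)), ← map_mul, hl, smul_mul_assoc, smul_mul_assoc,
            one_mul]
  obtain ⟨h, hdh, hns⟩ := not_forall₂.1 hscal
  rw [not_exists] at hns
  set t := LinearMap.trace k ρ.V (ρ.ρ h) with ht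
  set N := ρ.ρ h - (t / 2) • (1 : Module.End k ρ.V) with hN
  have hN0 : N ≠ 0 := fun h0 => hns _ (sub_eq_zero.1 h0)
  have htrN : LinearMap.trace k ρ.V N = 0 := by
    rw [hN, map_sub, map_smul, LinearMap.trace_one, ρ.finrank_eq, ← ht, smul_eq_mul, Nat.cast_ofNat,
      div_mul_cancel₀ _ h2, sub_self]
  refine false_of_quasiCentral ρ h2 hirr htw hN0 htrN (D := t / 2 * (t / 2) - 1) ?_ fun σ => ?_
  · have hCH := mul_self_eq_trace_det ρ (ρ.ρ h)
    rw [← ht, hdh, one_smul] at hCH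
    rw [hN]
    simp only [sub_mul, mul_sub, smul_mul_assoc, mul_smul_comm, one_mul, mul_one, hCH, smul_sub,
      smul_smul]
    have e : t = t / 2 + t / 2 := by field_simp; ring
    conv_lhs => arg 1; arg 1; arg 1; rw [e, add_smul]
    module
  · set g := σ * h * σ⁻¹ with hg
    have hdg : LinearMap.det (ρ.ρ g) = 1 := by
      have := hdetinv σ
      simp only [hg, map_mul, hdh, mul_one]
      linear_combination this
    have htg : LinearMap.trace k ρ.V (ρ.ρ g) = t := by
      rw [hg, map_mul, LinearMap.trace_mul_comm, ← map_mul, ← mul_assoc, inv_mul_cancel, one_mul]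
    have hMcomm : (ρ.ρ g - (t / 2) • (1 : Module.End k ρ.V)) * N =
        N * (ρ.ρ g - (t / 2) • (1 : Module.End k ρ.V)) := by
      rw [hN]
      simp only [sub_mul, mul_sub, smul_mul_assoc, mul_smul_comm, one_mul, mul_one,
        hcomm g h hdg hdh]
      module
    obtain ⟨a, b, hab⟩ := exists_eq_add_smul_of_commute ρ h2 N _ hN0 htrN hMcomm
    have ha : a = 0 := by
      have h1 := congrArg (LinearMap.trace k ρ.V) hab
      rw [map_sub, map_smul, map_add, map_smul, map_smul, LinearMap.trace_one, ρ.finrank_eq, htg,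
        htrN, smul_zero, add_zero, smul_eq_mul, smul_eq_mul, Nat.cast_ofNat,
        div_mul_cancel₀ _ h2, sub_self, eq_comm, mul_eq_zero] at h1
      exact h1.resolve_right h2
    rw [ha, zero_smul, zero_add] at hab
    refine ⟨b, ?_⟩
    calc ρ.ρ σ * N = (ρ.ρ g - (t / 2) • (1 : Module.End k ρ.V)) * ρ.ρ σ := by
          rw [hN, mul_sub, sub_mul, mul_smul_comm, smul_mul_assoc, mul_one, one_mul, ← map_mul,
            ← map_mul, hg, inv_mul_cancel_right]
      _ = b • (N * ρ.ρ σ) := by rw [hab, smul_mul_assoc]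

end Fermat.Agent.Lifting.Residual
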