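import Fermat.Agent.Lifting.Residual.TaylorWiles
import Fermat.Agent.Lifting.Residual.TraceNeZero
import Fermat.Agent.RT.NonEisenstein
import Mathlib.NumberTheory.LSeries.PrimesInAP

/-!
# Auxiliary primes for the residual representation of a semistable curve

* a good prime `r ≡ -1 (mod p)` with `a_r ≢ 0 (mod p)`, so `a_r² ≢ (r + 1)² (mod p)`;
* a good prime `l ≡ 1 (mod n p)` with `a_l ≢ l + 1 (mod p)`.
-/

set_option autoImplicit false
set_option linter.style.haveILetI false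

noncomputable section

open scoped TensorProduct
open Polynomial

namespace Fermat.Agent.Lifting.Residual

local notation "ℚ̄" => AlgebraicClosure ℚ
local notation "Γℚ" => (AlgebraicClosure ℚ ≃ₐ[ℚ] AlgebraicClosure ℚ)

variable {W : WeierstrassCurve ℤ} {p : ℕ} [hp : Fact p.Prime] (hΔ : W.Δ ≠ 0)

theorem trace_torsRep_frobenius {l : ℕ} (hl : l.Prime) (hlp : l ≠ p)
    (hgood : W.IsGoodPrimeFor l) {A : ValuationSubring ℚ̄} (hA : A.LiesOverPrime l) {σ : Γℚ}
    (hσ : A.IsFrobeniusAt σ l) :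
    LinearMap.trace (ZMod p) _ ((torsRep W p hΔ).ρ σ) = (W.apOfModel l : ZMod p) := by
  have h : LinearMap.charpoly ((torsRep W p hΔ).ρ σ) =
      X ^ 2 - C (W.apOfModel l : ZMod p) * X + C (l : ZMod p) :=
    EC.charpoly_residualGaloisRepOf W hl hA hgood hσ hlp _ _
  let b := Module.finBasisOfFinrankEq (ZMod p) (torsRep W p hΔ).V (torsRep W p hΔ).finrank_eq
  rw [← LinearMap.charpoly_toMatrix _ b, Matrix.charpoly_fin_two,
    ← LinearMap.trace_eq_matrix_trace] at h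
  have hc := congrArg (fun q => Polynomial.coeff q 1) h
  simpa [Polynomial.coeff_X, Polynomial.coeff_C, Polynomial.coeff_X_pow] using hc

theorem det_torsRep_frobenius {l : ℕ} (hl : l.Prime) (hlp : l ≠ p) {A : ValuationSubring ℚ̄}
    (hA : A.LiesOverPrime l) {σ : Γℚ} (hσ : A.IsFrobeniusAt σ l) :
    LinearMap.det ((torsRep W p hΔ).ρ σ) = (l : ZMod p) := by
  haveI : NeZero p := ⟨hp.out.ne_zero⟩
  rw [torsRep_det hΔ σ]
  exact EC.cycloChar_eq_of_isFrobeniusAt hl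
    (fun h => hlp ((Nat.prime_dvd_prime_iff_eq hl hp.out).1 h)) hA hσ

/-- Some element has determinant `-1` and non-zero trace on `E[p]`. -/
theorem exists_torsRep_det_neg_one_trace_ne_zero (hss : W.IsSemistableModel) (hp2 : p ≠ 2)
    (hirr : W.ModRepIsIrreducible p) :
    ∃ g : Γℚ, LinearMap.det ((torsRep W p hΔ).ρ g) = -1 ∧
      LinearMap.trace (ZMod p) _ ((torsRep W p hΔ).ρ g) ≠ 0 := by
  let f : ZMod p →+* AlgebraicClosure (ZMod p) := algebraMap _ _
  let R := (torsRep W p hΔ).baseChangeAlong f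
  have hdet : ∀ g, LinearMap.det (R.ρ g) = f (LinearMap.det ((torsRep W p hΔ).ρ g)) := fun g => by
    letI : Algebra (ZMod p) (AlgebraicClosure (ZMod p)) := f.toAlgebra
    exact LinearMap.det_baseChange _
  have htr : ∀ g, LinearMap.trace _ _ (R.ρ g) =
      f (LinearMap.trace (ZMod p) _ ((torsRep W p hΔ).ρ g)) := fun g => by
    letI : Algebra (ZMod p) (AlgebraicClosure (ZMod p)) := f.toAlgebra
    exact LinearMap.trace_baseChange _ _
  have h2 : (2 : AlgebraicClosure (ZMod p)) ≠ 0 := by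
    rw [← map_ofNat f 2]
    exact (map_ne_zero f).2 (two_ne_zero_of_odd hp2)
  have hirrR : R.IsIrreducible := Density.isIrreducible_of_absolutelyIrreducible R
    (torsRep_baseChangeAlong_isAbsolutelyIrreducible hΔ hp2 hirr f)
  have htw : ∀ G : Subgroup Γℚ, G.index = 2 → ∀ V : Submodule (AlgebraicClosure (ZMod p)) R.V,
      (∀ σ ∈ G, ∀ x ∈ V, R.ρ σ x ∈ V) → V = ⊥ ∨ V = ⊤ := by
    intro G hG V hV
    let k := AlgebraicClosure (ZMod p)
    let e : R.V ≃ₗ[k] k ⊗[k] R.V := (TensorProduct.lid k R.V).symm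
    have h := torsion_tw hΔ hss hp2 hirr f k G hG (V.map e.toLinearMap) fun σ hσ x hx => by
      obtain ⟨y, hy, rfl⟩ := Submodule.mem_map.1 hx
      exact Submodule.mem_map.2 ⟨R.ρ σ y, hV σ hσ y hy, rfl⟩
    rcases h with h | h
    · exact Or.inl (by simpa using h)
    · exact Or.inr (by
        refine eq_top_iff.2 fun x _ => ?_
        obtain ⟨y, hy, hye⟩ :=
          Submodule.mem_map.1 (show e x ∈ V.map e.toLinearMap from h ▸ Submodule.mem_top)
        rwa [← e.injective hye])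
  haveI : NeZero p := ⟨hp.out.ne_zero⟩
  obtain ⟨q, -, hq, hq1⟩ := Nat.forall_exists_prime_gt_and_eq_mod
    (show IsUnit (-1 : ZMod p) from isUnit_one.neg) p
  have hqp : q ≠ p := by
    rintro rfl
    rw [ZMod.natCast_self, eq_comm, neg_eq_zero] at hq1
    exact one_ne_zero hq1
  obtain ⟨A, c, hA, hc⟩ := Galois.exists_valuationSubring_isFrobeniusAt hq
  obtain ⟨g, hg, hgt⟩ := exists_det_neg_one_trace_ne_zero R h2 hirrR htw
    ⟨c, by rw [hdet, det_torsRep_frobenius hΔ hq hqp hA hc, hq1, map_neg, map_one]⟩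
  refine ⟨g, f.injective ?_, fun h => hgt ?_⟩
  · rw [← hdet, hg, map_neg, map_one]
  · rw [htr, h, map_zero]

include hΔ in
/-- **The auxiliary prime**: good, outside `S`, `r ≡ -1 (mod p)`, `a_r ≢ 0 (mod p)`. -/
theorem exists_aux_prime (hss : W.IsSemistableModel) (hp2 : p ≠ 2)
    (hirr : W.ModRepIsIrreducible p) (S : Finset ℕ) :
    ∃ r : ℕ, r.Prime ∧ r ∉ S ∧ r ≠ p ∧ W.IsGoodPrimeFor r ∧ (r : ZMod p) = -1 ∧
      (W.apOfModel r : ZMod p) ≠ 0 ∧
      (W.apOfModel r : ZMod p) ^ 2 ≠ ((r : ZMod p) + 1) ^ 2 := by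
  classical
  obtain ⟨g, hg, hgt⟩ := exists_torsRep_det_neg_one_trace_ne_zero hΔ hss hp2 hirr
  set ρ := torsRep W p hΔ with hρ
  obtain ⟨L, hL, hfix⟩ := ρ.factorsThroughFiniteLevel
  obtain ⟨r, hr, hrS, A, σ, hA, hσ, -, a, b, hga, hgb⟩ :=
    Density.exists_isFrobeniusAt_agree_pow L g (S ∪ {p} ∪ W.Δ.natAbs.primeFactors)
  simp only [Finset.mem_union, Finset.mem_singleton, Nat.mem_primeFactors, not_or] at hrS
  obtain ⟨⟨hS, hrp⟩, hrΔ⟩ := hrS
  have hgood : W.IsGoodPrimeFor r := fun hd =>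
    hrΔ ⟨hr, Int.natCast_dvd.1 hd, Int.natAbs_ne_zero.2 hΔ⟩
  have key : ∀ s t : Γℚ, (∀ x ∈ L, s x = t x) → ρ.ρ s = ρ.ρ t := by
    intro s t hst
    have h1 : ρ.ρ (t⁻¹ * s) = 1 := hfix _ fun x hx => by
      rw [AlgEquiv.mul_apply, hst x hx, ← AlgEquiv.mul_apply, inv_mul_cancel, AlgEquiv.one_apply]
    calc ρ.ρ s = ρ.ρ (t * (t⁻¹ * s)) := by rw [mul_inv_cancel_left]
      _ = ρ.ρ t := by rw [map_mul, h1, mul_one]
  have hσg : ρ.ρ σ = ρ.ρ g ^ a := by rw [← map_pow]; exact key _ _ hga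
  have hgσ : ρ.ρ g = ρ.ρ σ ^ b := by rw [← map_pow]; exact key _ _ hgb
  have hdσ : LinearMap.det (ρ.ρ σ) = -1 := by
    rcases neg_one_pow_eq_or (ZMod p) a with h | h
    · exfalso
      have h1 : LinearMap.det (ρ.ρ g) = 1 := by
        rw [hgσ, map_pow, hσg, map_pow, hg, h, one_pow]
      rw [hg] at h1
      exact two_ne_zero_of_odd hp2 (by linear_combination -h1)
    · rw [hσg, map_pow, hg, h]
  have htσ : LinearMap.trace (ZMod p) _ (ρ.ρ σ) ≠ 0 := by
    intro h0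
    have h1 : ρ.ρ σ * ρ.ρ σ = 1 := by
      rw [mul_self_eq_trace_det, h0, hdσ]
      simp
    rcases Nat.even_or_odd' b with ⟨m, rfl | rfl⟩
    · rw [hgσ, pow_mul, pow_two, h1, one_pow, map_one] at hg
      exact two_ne_zero_of_odd hp2 (by linear_combination hg)
    · rw [hgσ, pow_succ, pow_mul, pow_two, h1, one_pow, one_mul, h0] at hgt
      exact hgt rfl
  rw [trace_torsRep_frobenius hΔ hr hrp hgood hA hσ] at htσ
  rw [det_torsRep_frobenius hΔ hr hrp hA hσ] at hdσ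
  refine ⟨r, hr, hS, hrp, hgood, hdσ, htσ, ?_⟩
  rw [hdσ, neg_add_cancel, zero_pow two_ne_zero]
  exact pow_ne_zero 2 htσ

include hΔ in
/-- A good prime `l ≡ 1 (mod n)` and `(mod p)` outside `S` with `a_l ≢ l + 1 (mod p)`. -/
theorem exists_nonEisenstein_prime (hp2 : p ≠ 2) (hirr : W.ModRepIsIrreducible p) {n : ℕ}
    (hn : n ≠ 0) (S : Finset ℕ) :
    ∃ l : ℕ, l.Prime ∧ l ∉ S ∧ l ≠ p ∧ W.IsGoodPrimeFor l ∧ (l : ZMod n) = 1 ∧
      (l : ZMod p) = 1 ∧ (W.apOfModel l : ZMod p) ≠ (l : ZMod p) + 1 := by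
  classical
  haveI : NeZero p := ⟨hp.out.ne_zero⟩
  haveI : NeZero (n * p) := ⟨mul_ne_zero hn hp.out.ne_zero⟩
  haveI : Fact (1 < n * p) := ⟨lt_of_lt_of_le hp.out.one_lt
    (Nat.le_mul_of_pos_left p (Nat.pos_of_ne_zero hn))⟩
  have hmod : ∀ g : Γℚ, EC.cycloChar (n * p) g = 1 → EC.cycloChar p g = 1 := by
    intro g hg
    obtain ⟨ζ, hζ⟩ := EC.exists_primitiveRoot_qbar p
    have hfix : g ζ = ζ ^ 1 := by
      have h := EC.apply_eq_pow_cycloChar (n * p) g (x := ζ)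
        (by rw [mul_comm, pow_mul, hζ.pow_eq_one, one_pow])
      rwa [hg, Units.val_one, ZMod.val_one] at h
    exact Units.ext (by rw [EC.cycloChar_eq_of_apply_eq_pow p g hζ hfix, Nat.cast_one,
      Units.val_one])
  obtain ⟨l, hl, hlS, hl1, A, σ, hA, hσ, ht⟩ := RT.exists_prime_trace_ne_two (torsRep W p hΔ)
    (torsRep_isAbsolutelyIrreducible hΔ hp2 hirr) (n * p)
    (fun g hg => by rw [torsRep_det, hmod g hg, Units.val_one])
    (S ∪ {p} ∪ W.Δ.natAbs.primeFactors)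
  simp only [Finset.mem_union, Finset.mem_singleton, Nat.mem_primeFactors, not_or] at hlS
  obtain ⟨⟨hS, hlp⟩, hlΔ⟩ := hlS
  have hgood : W.IsGoodPrimeFor l := fun hd =>
    hlΔ ⟨hl, Int.natCast_dvd.1 hd, Int.natAbs_ne_zero.2 hΔ⟩
  have h1n : (l : ZMod n) = 1 := by
    have := congrArg (ZMod.castHom (dvd_mul_right n p) (ZMod n)) hl1
    simpa using this
  have h1p : (l : ZMod p) = 1 := by
    have := congrArg (ZMod.castHom (dvd_mul_left p n) (ZMod p)) hl1
    simpa using this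
  refine ⟨l, hl, hS, hlp, hgood, h1n, h1p, fun ha => ht ?_⟩
  rw [trace_torsRep_frobenius hΔ hl hlp hgood hA hσ, ha, h1p]
  norm_num

end Fermat.Agent.Lifting.Residual
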