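import Fermat.Agent.Lifting.Residual.Frames
import Fermat.Agent.RT.LocalQ.Rep

/-!
# Residual unramifiedness at a bad prime, read in the adapted frame

With `σ = (1, c; 0, 1)` in the frame of `T_p W` at `q ≠ p`: `E[p]` is unramified at `q` iff `p ∣ c`.
-/

set_option autoImplicit false
set_option linter.style.haveILetI false

noncomputable section

open IsLocalRing Polynomial
open scoped TensorProduct Pointwise

namespace Fermat.Agent.Lifting.Residual

local notation "ℚ̄" => AlgebraicClosure ℚ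
local notation "Γℚ" => (AlgebraicClosure ℚ ≃ₐ[ℚ] AlgebraicClosure ℚ)

variable {W : WeierstrassCurve ℤ} {p : ℕ} [hp : Fact p.Prime] (hΔ : W.Δ ≠ 0)

/-- `E[p]` is unramified at `q` iff a tame generator of inertia acts trivially. -/
theorem torsRep_isUnramifiedAt_iff (hss : W.IsSemistableModel) {q : ℕ} (hq : q.Prime) (hqp : q ≠ p)
    (T : RT.TamePair p q) :
    (torsRep W p hΔ).IsUnramifiedAt q ↔ (torsRep W p hΔ).ρ T.σ = 1 := by
  refine ⟨fun h => h T.A T.hA T.σ T.hσ, fun hσ => ?_⟩
  haveI := EC.Reducible.isElliptic_rat W hΔ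
  set ρ := torsRep W p hΔ with hρ
  haveI : Nontrivial ρ.V := Module.nontrivial_of_finrank_eq_succ ρ.finrank_eq
  have : CharP (Module.End (ZMod p) ρ.V) p :=
    charP_of_injective_algebraMap (algebraMap (ZMod p) (Module.End (ZMod p) ρ.V)).injective p
  have hpow : ∀ τ ∈ T.A.inertiaSubgroupIn ℚ, ρ.ρ τ ^ p = 1 := by
    intro τ hτ
    have hn : ¬ q ∣ p := fun h => hqp ((Nat.prime_dvd_prime_iff_eq hq hp.out).mp h)
    have h : (rep W p τ - 1) * (rep W p τ - 1) = 0 := LinearMap.ext fun x => by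
      show τ • (τ • x - x) - (τ • x - x) = 0
      exact sub_eq_zero.mpr (Subtype.ext (EC.Reducible.inertia_smul_sub_fixed W hΔ hq (hss q hq)
        T.A T.hA hn hτ hτ (EC.Reducible.nsmul_coe_eq_zero x)))
    rw [← sub_eq_zero, ← one_pow p, ← sub_pow_char_of_commute p (Commute.one_right _)]
    have h' : (ρ.ρ τ - 1) * (ρ.ρ τ - 1) = 0 := h
    exact pow_eq_zero_of_le hp.out.two_le (by rw [pow_two, h'])
  have htame : RT.IsTameAt p T.A ρ.ρ.toHomUnits :=
    { finite_level := by
        obtain ⟨L, hL, hfix⟩ := ρ.factorsThroughFiniteLevel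
        exact ⟨L, hL, fun τ hτ => Units.ext (by rw [MonoidHom.coe_toHomUnits, hfix τ hτ,
          Units.val_one])⟩
      inertia_pow := fun τ hτ => ⟨1, Units.ext (by
        rw [Units.val_pow_eq_pow_val, MonoidHom.coe_toHomUnits, pow_one, hpow τ hτ,
          Units.val_one])⟩ }
  have hA : ∀ τ ∈ T.A.inertiaSubgroupIn ℚ, ρ.ρ τ = 1 := by
    intro τ hτ
    obtain ⟨b, hb, -⟩ := T.exists_pow_inertia hp.out hq hqp.symm htame 0 hτ
    have h := congrArg Units.val hb
    rw [Units.val_pow_eq_pow_val, MonoidHom.coe_toHomUnits, MonoidHom.coe_toHomUnits, hσ,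
      one_pow] at h
    exact h
  intro B hB τ hτ
  obtain ⟨a, rfl⟩ := Density.exists_smul_eq hq T.hA hB
  have h := hA _ (Density.conj_inv_mem_inertiaSubgroupIn hτ)
  rw [show τ = a * (a⁻¹ * τ * a) * a⁻¹ by group, map_mul, map_mul, h, mul_one, ← map_mul,
    mul_inv_cancel, map_one]

/-- In the adapted frame: `E[p]` unramified at `q` iff `c ≡ 0`. -/
theorem torsRep_isUnramifiedAt_iff_frame (hss : W.IsSemistableModel) {q : ℕ} (hq : q.Prime)
    (hqp : q ≠ p) (T : RT.TamePair p q)
    (b : Module.Basis (Fin 2) ℤ_[p] (tatePoint W p hΔ).V) {c : ℤ_[p]}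
    (hc : LinearMap.toMatrix b b ((tatePoint W p hΔ).ρ T.σ) = !![1, c; 0, 1]) :
    (torsRep W p hΔ).IsUnramifiedAt q ↔ c ∈ maximalIdeal ℤ_[p] := by
  rw [torsRep_isUnramifiedAt_iff hΔ hss hq hqp T]
  let ψ : ZMod p →+* ResidueField ℤ_[p] := (PadicInt.residueField (p := p)).symm.toRingHom
  obtain ⟨e⟩ := tatePoint_residual_isEquiv hΔ ψ
  have h1 : (torsRep W p hΔ).ρ T.σ = 1 ↔ (tatePoint W p hΔ).residual.ρ T.σ = 1 := by
    constructor
    · intro h
      refine LinearMap.ext fun x => e.toLinearEquiv.injective ?_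
      rw [e.map_apply]
      letI : Algebra (ZMod p) (ResidueField ℤ_[p]) := ψ.toAlgebra
      show ((torsRep W p hΔ).ρ T.σ).baseChange (ResidueField ℤ_[p]) (e.toLinearEquiv x) = _
      rw [h, LinearMap.baseChange_one]
      rfl
    · intro h
      letI : Algebra (ZMod p) (ResidueField ℤ_[p]) := ψ.toAlgebra
      refine LinearMap.ext fun x => RT.tmul_one_injective (k := ZMod p) (K := ResidueField ℤ_[p]) ?_
      have h2 := e.map_apply T.σ (e.toLinearEquiv.symm ((1 : ResidueField ℤ_[p]) ⊗ₜ x))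
      rw [h] at h2
      erw [LinearEquiv.apply_symm_apply] at h2
      exact h2.symm
  rw [h1, ← RT.matOf_eq_one_iff (tatePoint W p hΔ).residual.ρ
      (Algebra.TensorProduct.basis (ResidueField ℤ_[p]) b) T.σ,
    ← RT.map_matOf_eq_residual, Deformation.matOf_apply, hc, ← residue_eq_zero_iff]
  constructor
  · intro h
    simpa using congrFun (congrFun h 0) 1
  · intro h
    ext i j
    fin_cases i <;> fin_cases j <;> simp [h]

end Fermat.Agent.Lifting.Residual
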