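import Fermat.Agent.Lifting.Residual.FrameUnramified
import Fermat.Agent.RT.LocalAtP.Conditions
import Fermat.Agent.RT.LocalAtP.Flat
import Fermat.Agent.RT.ResidualExtend
import Fermat.Agent.Density.CharpolyDetermines

/-!
# Extension of scalars of the Tate module point

`pointAlong hΔ φ hφ` is `T_p W ⊗ O` for a local `φ : ℤ_p → O`; it has the local properties of
`T_p W`, and its residual representation is `E[p] ⊗ k`.
-/

set_option autoImplicit false
set_option linter.style.haveILetI false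

noncomputable section

open IsLocalRing Polynomial

namespace Fermat.Agent.Lifting.Residual

local notation "ℚ̄" => AlgebraicClosure ℚ
local notation "Γℚ" => (AlgebraicClosure ℚ ≃ₐ[ℚ] AlgebraicClosure ℚ)

variable {W : WeierstrassCurve ℤ} {p : ℕ} [hp : Fact p.Prime] (hΔ : W.Δ ≠ 0)
  {O : Type} [CommRing O] [IsLocalRing O] (φ : ℤ_[p] →+* O) (hφ : IsLocalHom φ)

/-- The point over `O`. -/
abbrev pointAlong : GaloisRepAdic O :=
  (tatePoint W p hΔ).baseChangeAlong φ hφ

theorem pointAlong_detIsCyclotomic : (pointAlong hΔ φ hφ).DetIsCyclotomic p :=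
  RT.detIsCyclotomic_baseChangeAlong φ hφ (tatePoint_detIsCyclotomic hΔ)

theorem pointAlong_isUnramifiedAt {q : ℕ} (hq : q.Prime) (hgood : W.IsGoodPrimeFor q)
    (hqp : q ≠ p) : (pointAlong hΔ φ hφ).IsUnramifiedAt q :=
  (RT.isDescending_isUnramifiedAt (p := p) q).baseChange φ hφ
    (tatePoint_isUnramifiedAt hΔ hq hgood hqp)

theorem pointAlong_isUnipotentOnInertiaAt (hss : W.IsSemistableModel) {q : ℕ} (hq : q.Prime)
    (hqp : q ≠ p) : (pointAlong hΔ φ hφ).IsUnipotentOnInertiaAt q :=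
  (RT.isDescending_isUnipotentOnInertiaAt (p := p) q).baseChange φ hφ
    (tatePoint_isUnipotentOnInertiaAt hΔ hss hq hqp)

theorem pointAlong_isFlatAt [Finite (ResidueField O)] (hgood : W.IsGoodPrimeFor p) :
    (pointAlong hΔ φ hφ).IsFlatAt p :=
  RT.FlatCond.isFlatAt_baseChangeAlong φ hφ (tatePoint_isFlatAt hΔ hgood)

theorem pointAlong_isStrictOrdinaryAt (hp2 : p ≠ 2) (hss : W.IsSemistableModel)
    (hbad : (p : ℤ) ∣ W.Δ) : (pointAlong hΔ φ hφ).IsStrictOrdinaryAt p :=
  ((RT.isDescending_det_strictOrdinary hp.out hp2).baseChange φ hφ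
    ⟨tatePoint_detIsCyclotomic hΔ, tatePoint_isStrictOrdinaryAt hΔ hss hbad⟩).2

theorem pointAlong_charpoly_frobenius {l : ℕ} (hl : l.Prime) (hlp : l ≠ p)
    (hgood : W.IsGoodPrimeFor l) {A : ValuationSubring ℚ̄} (hA : A.LiesOverPrime l) {σ : Γℚ}
    (hσ : A.IsFrobeniusAt σ l) :
    LinearMap.charpoly ((pointAlong hΔ φ hφ).ρ σ) =
      X ^ 2 - C ((W.apOfModel l : O)) * X + C ((l : O)) := by
  rw [RT.charpoly_adic_baseChangeAlong, tatePoint_charpoly_frobenius hΔ hl hlp hgood hA hσ]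
  simp

/-- The adapted frame over `O`. -/
theorem pointAlong_exists_frame (hss : W.IsSemistableModel) {q : ℕ} (hq : q.Prime) (hqp : q ≠ p)
    (hbad : (q : ℤ) ∣ W.Δ) (T : RT.TamePair p q) :
    ∃ (z : ℤ) (b : Module.Basis (Fin 2) O (pointAlong hΔ φ hφ).V) (y c : O),
      (z = 1 ∨ z = -1) ∧
      (∀ (A : ValuationSubring ℚ̄) (σ : Γℚ), A.LiesOverPrime q → A.IsFrobeniusAt σ q →
        LinearMap.charpoly ((pointAlong hΔ φ hφ).ρ σ) =
          (X - C ((q : O) * (z : O))) * (X - C ((z : O)))) ∧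
      LinearMap.toMatrix b b ((pointAlong hΔ φ hφ).ρ T.F) =
        !![(q : O) * (z : O), y; 0, (z : O)] ∧
      LinearMap.toMatrix b b ((pointAlong hΔ φ hφ).ρ T.σ) = !![1, c; 0, 1] ∧
      ((torsRep W p hΔ).IsUnramifiedAt q ↔ c ∈ maximalIdeal O) := by
  obtain ⟨z, hz, hchar⟩ := tatePoint_exists_sign hΔ hss hq hqp hbad
  obtain ⟨b, y, c, hF, hσ⟩ := tatePoint_exists_frame hΔ hss hq hqp hbad T hchar
  obtain ⟨b', hb'⟩ := Deformation.exists_basis_baseChangeAlong (tatePoint W p hΔ) b φ hφ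
  have hb : ∀ g, LinearMap.toMatrix b' b' ((pointAlong hΔ φ hφ).ρ g) =
      (LinearMap.toMatrix b b ((tatePoint W p hΔ).ρ g)).map φ := fun g => by
    have h := DFunLike.congr_fun hb' g
    rw [Deformation.matOf_apply] at h
    exact h
  refine ⟨z, b', φ y, φ c, hz, fun A σ hA hσ' => ?_, ?_, ?_, ?_⟩
  · rw [RT.charpoly_adic_baseChangeAlong, hchar A σ hA hσ']
    simp
  · rw [hb, hF]
    ext i j
    fin_cases i <;> fin_cases j <;> simp
  · rw [hb, hσ]
    ext i j
    fin_cases i <;> fin_cases j <;> simp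
  · rw [torsRep_isUnramifiedAt_iff_frame hΔ hss hq hqp T b hσ]
    have := hφ
    simp only [mem_maximalIdeal, mem_nonunits_iff, isUnit_map_iff φ c]

/-- The residual representation of the point is `E[p] ⊗ k`. -/
theorem pointAlong_residual_isEquiv (hp2 : p ≠ 2) (hirr : W.ModRepIsIrreducible p)
    (ψ : ZMod p →+* ResidueField O) :
    (pointAlong hΔ φ hφ).residual.IsEquiv ((torsRep W p hΔ).baseChangeAlong ψ) := by
  classical
  obtain ⟨e⟩ : ((torsRep W p hΔ).baseChangeAlong ψ).IsEquiv (pointAlong hΔ φ hφ).residual := by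
    refine Density.residual_isEquiv_of_frobenius _ _ ({p} ∪ W.Δ.natAbs.primeFactors)
      (torsRep_baseChangeAlong_isAbsolutelyIrreducible hΔ hp2 hirr ψ)
      fun l hl hlS A hA σ hσ => ?_
    simp only [Finset.mem_union, Finset.mem_singleton, Nat.mem_primeFactors, not_or] at hlS
    have hgood : W.IsGoodPrimeFor l := fun hd =>
      hlS.2 ⟨hl, Int.natCast_dvd.1 hd, Int.natAbs_ne_zero.2 hΔ⟩
    have h2 : LinearMap.charpoly ((torsRep W p hΔ).ρ σ) =
        X ^ 2 - C (W.apOfModel l : ZMod p) * X + C (l : ZMod p) :=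
      EC.charpoly_residualGaloisRepOf W hl hA hgood hσ hlS.1 _ _
    have h1 : LinearMap.charpoly ((pointAlong hΔ φ hφ).residual.ρ σ) =
        (LinearMap.charpoly ((pointAlong hΔ φ hφ).ρ σ)).map (residue O) := by
      show LinearMap.charpoly (((pointAlong hΔ φ hφ).ρ σ).baseChange (ResidueField O)) = _
      rw [LinearMap.charpoly_baseChange]
      rfl
    rw [h1, RT.charpoly_baseChangeAlong, h2,
      pointAlong_charpoly_frobenius hΔ φ hφ hl hlS.1 hgood hA hσ]
    simp
  exact ⟨e.symm⟩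

end Fermat.Agent.Lifting.Residual
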