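import Fermat.Agent.Lifting.Residual.TatePoint
import Fermat.Agent.RT.LocalQ.TamePair

/-!
# The adapted frame of the Tate module at a bad prime `q ≠ p`

For a tame pair `(F, σ)` at `q` there is a basis of `T_p W` in which `F = (q z, y; 0, z)` and
`σ = (1, c; 0, 1)`, with `z` the sign of `W` at `q`.
-/

set_option autoImplicit false
set_option linter.style.haveILetI false

noncomputable section

open Polynomial

namespace Fermat.Agent.Lifting.Residual

local notation "ℚ̄" => AlgebraicClosure ℚ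
local notation "Γℚ" => (AlgebraicClosure ℚ ≃ₐ[ℚ] AlgebraicClosure ℚ)

variable {W : WeierstrassCurve ℤ} {p : ℕ} [hp : Fact p.Prime] (hΔ : W.Δ ≠ 0)

/-- **The frame at a bad `q ≠ p`.** -/
theorem tatePoint_exists_frame (hss : W.IsSemistableModel) {q : ℕ} (hq : q.Prime) (hqp : q ≠ p)
    (hbad : (q : ℤ) ∣ W.Δ) (T : RT.TamePair p q) {z : ℤ}
    (hz : ∀ (A : ValuationSubring ℚ̄) (σ : Γℚ), A.LiesOverPrime q →
      A.IsFrobeniusAt σ q → LinearMap.charpoly ((tatePoint W p hΔ).ρ σ) =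
        (X - C ((q : ℤ_[p]) * (z : ℤ_[p]))) * (X - C ((z : ℤ_[p])))) :
    ∃ (b : Module.Basis (Fin 2) ℤ_[p] (tatePoint W p hΔ).V) (y c : ℤ_[p]),
      LinearMap.toMatrix b b ((tatePoint W p hΔ).ρ T.F) =
        !![(q : ℤ_[p]) * (z : ℤ_[p]), y; 0, (z : ℤ_[p])] ∧
      LinearMap.toMatrix b b ((tatePoint W p hΔ).ρ T.σ) = !![1, c; 0, 1] := by
  haveI := EC.isElliptic_map_rat hΔ
  obtain ⟨b, hD, hI, hchar⟩ := EC.exists_tateLine W p hq hΔ hbad (hss q hq hbad) T.A T.hA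
  set R := (EC.tateRep (W.map (Int.castRingHom ℚ)) p).ρ with hR
  have hdvd : ∀ n, ¬ q ∣ p ^ n := fun n h =>
    hqp ((Nat.prime_dvd_prime_iff_eq hq hp.out).1 (hq.dvd_of_dvd_pow h))
  have hmat : ∀ (g : Γℚ) (x w : ℤ_[p]), (∀ v ∈ ℤ_[p] ∙ b 0, R g v = x • v) →
      (∀ v, R g v - w • v ∈ ℤ_[p] ∙ b 0) →
      LinearMap.toMatrix b b (R g) = !![x, b.repr (R g (b 1)) 0; 0, w] := by
    intro g x w hx hw
    obtain ⟨r, hr⟩ := Submodule.mem_span_singleton.mp (hw (b 1))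
    have h1 : R g (b 1) = r • b 0 + w • b 1 := by rw [hr, sub_add_cancel]
    have h0 : R g (b 0) = x • b 0 := hx _ (Submodule.mem_span_singleton_self _)
    ext i j
    fin_cases i <;> fin_cases j <;> simp [LinearMap.toMatrix_apply, h0, h1]
  obtain ⟨x, w, -, hxF, hwF, -, hpoly, hlev⟩ := hchar T.F T.hF.mem_decompositionSubgroup
  have hx : x = (q : ℤ_[p]) * w := by
    refine PadicInt.ext_of_toZModPow.1 fun n => hlev hqp.symm n q fun μ hμ => ?_
    have : NeZero (p ^ n) := ⟨pow_ne_zero n hp.out.ne_zero⟩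
    rw [EC.apply_eq_pow_cycloChar (p ^ n) T.F hμ,
      EC.cycloChar_eq_of_isFrobeniusAt hq (hdvd n) T.hA T.hF, ZMod.val_natCast]
    exact (pow_eq_pow_mod q hμ).symm
  have hw : w = (z : ℤ_[p]) := by
    have h := congrArg (fun P => Polynomial.coeff P 1) (hpoly.symm.trans (hz T.A T.F T.hA T.hF))
    simp [sub_mul, mul_sub, Polynomial.coeff_X, Polynomial.coeff_C, hx] at h
    have h' : ((q : ℤ_[p]) + 1) * (w - z) = 0 := by linear_combination -h
    rcases mul_eq_zero.1 h' with h0 | h0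
    · exact absurd h0 (Nat.cast_add_one_ne_zero q)
    · exact sub_eq_zero.1 h0
  obtain ⟨x', w', -, hxσ, hwσ, -, -, hlev'⟩ :=
    hchar T.σ (EC.Mult.mem_decompositionSubgroup_of_mem_inertia T.hσ)
  have hw' : w' = 1 := by
    have h : (1 - w') • b 1 ∈ ℤ_[p] ∙ b 0 := by
      have := Submodule.sub_mem _ (hwσ (b 1)) (hI T.σ T.hσ (b 1))
      rwa [sub_sub_sub_cancel_left, ← one_smul ℤ_[p] (b 1), smul_smul, mul_one, ← sub_smul] at this
    obtain ⟨r, hr⟩ := Submodule.mem_span_singleton.mp h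
    have h' := congrArg (fun v => b.repr v 1) hr
    simp at h'
    exact (sub_eq_zero.mp h'.symm).symm
  have hx' : x' = 1 := by
    refine PadicInt.ext_of_toZModPow.1 fun n => ?_
    have : NeZero (p ^ n) := ⟨pow_ne_zero n hp.out.ne_zero⟩
    rw [hlev' hqp.symm n 1 fun μ hμ => ?_, hw', Nat.cast_one, mul_one]
    rw [pow_one, RT.inertia_apply_rootOfUnity hq (hdvd n) T.hA T.hσ hμ]
  refine ⟨b, b.repr (R T.F (b 1)) 0, b.repr (R T.σ (b 1)) 0, ?_, ?_⟩
  · rw [← hw, ← hx]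
    exact hmat T.F x w hxF hwF
  · have h := hmat T.σ x' w' hxσ hwσ
    rw [hw', hx'] at h
    exact h

end Fermat.Agent.Lifting.Residual
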