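import Fermat.Agent.RT.Tame

/-!
# Tame inertia has commutative image

If all elements of the image of inertia at a place over `q` under a finite-level homomorphism
have order prime to `q`, the image is commutative.
-/

set_option autoImplicit false

noncomputable section

namespace Fermat.Agent.Lifting.Residual

open scoped NumberField

section Dedekind

variable {R G : Type*} [CommRing R] [IsDedekindDomain R] [Group G] [MulSemiringAction G R]
  {Q : Ideal R}

omit [IsDedekindDomain R] in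
private theorem smul_mem_of_mem_inertia {τ : G} (hτ : ∀ x : R, τ • x - x ∈ Q) {x : R}
    (hx : x ∈ Q) : τ • x ∈ Q := by
  simpa using add_mem (hτ x) hx

omit [IsDedekindDomain R] in
private theorem smul_mem_sq {τ : G} (hτ : ∀ x : R, τ • x - x ∈ Q) {w : R} (hw : w ∈ Q ^ 2) :
    τ • w ∈ Q ^ 2 := by
  rw [pow_two] at hw ⊢
  refine Submodule.mul_induction_on hw (fun a ha b hb => ?_) fun a b ha hb => ?_
  · rw [smul_mul']
    exact Ideal.mul_mem_mul (smul_mem_of_mem_inertia hτ ha) (smul_mem_of_mem_inertia hτ hb)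
  · rw [smul_add]; exact add_mem ha hb

/-- Inertia elements whose images have order prime to the residue characteristic commute after
applying `f`. -/
theorem commute_map_of_mem_inertia [Finite G] [FaithfulSMul G R] (hQ : Q.IsMaximal) (hQ0 : Q ≠ ⊥)
    {q : ℕ} (hq : q.Prime) (hqQ : (q : R) ∈ Q)
    {H : Type*} [Group H] (f : G →* H)
    (hf : ∀ τ ∈ Q.inertia G, ∃ N : ℕ, ¬ q ∣ N ∧ f τ ^ N = 1) :
    ∀ σ ∈ Q.inertia G, ∀ τ ∈ Q.inertia G, Commute (f σ) (f τ) := by
  classical
  have := hQ.isPrime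
  obtain ⟨π, hπ, hπ2⟩ : ∃ π ∈ Q, π ∉ Q ^ 2 := by
    obtain ⟨π, hπ, hπ'⟩ := Ideal.exists_mem_pow_notMem_pow_succ Q hQ0 hQ.ne_top 1
    exact ⟨π, by simpa using hπ, hπ'⟩
  have hspan : Ideal.span {π} ⊔ Q ^ 2 = Q := by
    have h := Ideal.eq_prime_pow_of_succ_lt_of_le (P := Q) hQ0
      (I := Ideal.span {π} ⊔ Q ^ 2) (i := 1)
      (lt_of_le_of_ne le_sup_right fun h => hπ2
        (h ▸ Ideal.mem_sup_left (Ideal.mem_span_singleton_self π)))
      (by rw [pow_one]
          exact sup_le ((Ideal.span_singleton_le_iff_mem Q).mpr hπ) (Ideal.pow_le_self two_ne_zero))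
    rwa [pow_one] at h
  have hu : ∀ τ : Q.inertia G, ∃ u : R, (τ : G) • π - u * π ∈ Q ^ 2 := by
    intro τ
    have h := smul_mem_of_mem_inertia (τ := (τ : G)) τ.2 hπ
    replace h : (τ : G) • π ∈ Ideal.span {π} ⊔ Q ^ 2 := hspan.symm ▸ h
    obtain ⟨a, ha, b, hb, hab⟩ := Submodule.mem_sup.mp h
    obtain ⟨u, rfl⟩ := Ideal.mem_span_singleton'.mp ha
    exact ⟨u, by rw [← hab, add_sub_cancel_left]; exact hb⟩
  choose u hu using hu
  have huniq : ∀ a b : R, (a - b) * π ∈ Q ^ 2 → Ideal.Quotient.mk Q a = Ideal.Quotient.mk Q b := by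
    intro a b h
    rw [Ideal.Quotient.eq]
    by_contra hab
    obtain ⟨c, w, hw, hsum⟩ := hQ.exists_inv hab
    refine hπ2 ?_
    have : π = c * ((a - b) * π) + w * π := by linear_combination (-π) * hsum
    rw [this]
    refine add_mem ((Q ^ 2).mul_mem_left c h) ?_
    rw [pow_two]; exact Ideal.mul_mem_mul hw hπ
  let χ : Q.inertia G →* R ⧸ Q :=
    { toFun := fun τ => Ideal.Quotient.mk Q (u τ)
      map_one' := by
        rw [← map_one (Ideal.Quotient.mk Q)]
        refine huniq _ _ ?_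
        rw [show (u 1 - 1) * π = -(((1 : Q.inertia G) : G) • π - u 1 * π) by simp; ring]
        exact neg_mem (hu 1)
      map_mul' := fun σ τ => by
        rw [← map_mul]
        refine huniq _ _ ?_
        have h3 : ((σ : G) • u τ - u τ) * (σ : G) • π ∈ Q ^ 2 := by
          rw [pow_two]; exact Ideal.mul_mem_mul (σ.2 _) (smul_mem_of_mem_inertia σ.2 hπ)
        have : (u (σ * τ) - u σ * u τ) * π =
            -(((σ * τ : Q.inertia G) : G) • π - u (σ * τ) * π) +
              ((σ : G) • ((τ : G) • π - u τ * π)) + ((σ : G) • u τ - u τ) * (σ : G) • π +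
              u τ * ((σ : G) • π - u σ * π) := by
          rw [Subgroup.coe_mul, mul_smul, smul_sub, smul_mul']
          ring
        rw [this]
        exact add_mem (add_mem (add_mem (neg_mem (hu _)) (smul_mem_sq σ.2 (hu τ))) h3)
          ((Q ^ 2).mul_mem_left _ (hu σ)) }
  have hker : ∀ τ : Q.inertia G, χ τ = 1 → f τ = 1 := by
    intro τ hone
    replace hone : Ideal.Quotient.mk Q (u τ) = Ideal.Quotient.mk Q 1 := by rw [map_one]; exact hone
    rw [Ideal.Quotient.eq] at hone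
    have hπτ : (τ : G) • π - π ∈ Q ^ 2 := by
      rw [show (τ : G) • π - π = ((τ : G) • π - u τ * π) + (u τ - 1) * π by ring]
      exact add_mem (hu τ) (by rw [pow_two]; exact Ideal.mul_mem_mul hone hπ)
    have hτQ : ∀ x ∈ Q, (τ : G) • x - x ∈ Q ^ 2 := by
      intro x hx
      rw [← hspan] at hx
      obtain ⟨a, ha, b, hb, rfl⟩ := Submodule.mem_sup.mp hx
      obtain ⟨c, rfl⟩ := Ideal.mem_span_singleton'.mp ha
      rw [smul_add, smul_mul',
        show (τ : G) • c * (τ : G) • π + (τ : G) • b - (c * π + b) =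
          ((τ : G) • c - c) * (τ : G) • π + c * ((τ : G) • π - π) + ((τ : G) • b - b) by ring]
      refine add_mem (add_mem ?_ ((Q ^ 2).mul_mem_left c hπτ)) (sub_mem (smul_mem_sq τ.2 hb) hb)
      rw [pow_two]; exact Ideal.mul_mem_mul (τ.2 c) (smul_mem_of_mem_inertia τ.2 hπ)
    obtain ⟨v, m, hm, hn⟩ :=
      Nat.exists_eq_pow_mul_and_not_dvd (orderOf_pos (τ : G)).ne' q hq.ne_one
    have hmQ : (m : R) ∉ Q := by
      intro hmem
      obtain ⟨a, b, hab⟩ := Nat.Coprime.isCoprime ((hq.coprime_iff_not_dvd).mpr hm)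
      refine hQ.ne_top ((Ideal.eq_top_iff_one Q).mpr ?_)
      have := congrArg (Int.cast : ℤ → R) hab
      push_cast at this
      rw [← this]
      exact add_mem (Q.mul_mem_left _ hqQ) (Q.mul_mem_left _ hmem)
    have hinert : ∀ x : R, ((τ : G) ^ q ^ v) • x - x ∈ Q := (Q.inertia G).pow_mem τ.2 _
    have hinertQ : ∀ x ∈ Q, ((τ : G) ^ q ^ v) • x - x ∈ Q ^ 2 := by
      generalize q ^ v = k
      intro x hx
      induction k with
      | zero => simp
      | succ k ihk =>
        rw [show (τ : G) ^ (k + 1) = (τ : G) * (τ : G) ^ k from pow_succ' _ k, mul_smul,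
          show (τ : G) • ((τ : G) ^ k • x) - x =
            (τ : G) • ((τ : G) ^ k • x - x) + ((τ : G) • x - x) by rw [smul_sub]; ring]
        exact add_mem (smul_mem_sq τ.2 ihk) (hτQ x hx)
    have hone' : (τ : G) ^ q ^ v = 1 := eq_of_smul_eq_smul (α := R) fun x => by
      rw [one_smul]
      exact RT.smul_eq_self_of_pow_eq_one hQ hinert hinertQ hmQ
        (by rw [← pow_mul, ← hn]; exact pow_orderOf_eq_one _) x
    obtain ⟨N, hN, hfN⟩ := hf τ τ.2
    have h1 : f τ ^ q ^ v = 1 := by rw [← map_pow, hone', map_one]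
    have := pow_gcd_eq_one.mpr ⟨hfN, h1⟩
    rwa [((hq.coprime_iff_not_dvd.mpr hN).symm.pow_right v).gcd_eq_one, pow_one] at this
  intro σ hσ τ hτ
  let s : Q.inertia G := ⟨σ, hσ⟩
  let t : Q.inertia G := ⟨τ, hτ⟩
  have h : χ (s * t * (t * s)⁻¹) = 1 := by
    rw [map_mul, map_mul, mul_comm (χ s), ← map_mul, ← map_mul, mul_inv_cancel, map_one]
  have h' := hker _ h
  rw [Subgroup.coe_mul, Subgroup.coe_mul, Subgroup.coe_inv, map_mul, map_inv,
    mul_inv_eq_one] at h'
  show f σ * f τ = f τ * f σ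
  rw [← map_mul, ← map_mul]
  exact h'

end Dedekind

/-- If the images of inertia at a place over `q` have order prime to `q` under a finite-level
homomorphism, they commute. -/
theorem commute_map_inertiaSubgroupIn {H : Type*} [Group H]
    (f : (AlgebraicClosure ℚ ≃ₐ[ℚ] AlgebraicClosure ℚ) →* H)
    (hfin : ∃ L : IntermediateField ℚ (AlgebraicClosure ℚ), FiniteDimensional ℚ L ∧
      ∀ σ : AlgebraicClosure ℚ ≃ₐ[ℚ] AlgebraicClosure ℚ, (∀ x ∈ L, σ x = x) → f σ = 1)
    {q : ℕ} (hq : q.Prime) {A : ValuationSubring (AlgebraicClosure ℚ)} (hA : A.LiesOverPrime q)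
    (hord : ∀ τ ∈ A.inertiaSubgroupIn ℚ, ∃ N : ℕ, ¬ q ∣ N ∧ f τ ^ N = 1) :
    ∀ σ ∈ A.inertiaSubgroupIn ℚ, ∀ τ ∈ A.inertiaSubgroupIn ℚ, Commute (f σ) (f τ) := by
  classical
  obtain ⟨L, hL, hker⟩ := hfin
  let K : IntermediateField ℚ (AlgebraicClosure ℚ) :=
    IntermediateField.normalClosure ℚ L (AlgebraicClosure ℚ)
  have : Algebra.IsAlgebraic ℚ (AlgebraicClosure ℚ) := AlgebraicClosure.isAlgebraic ℚ
  have : IsAlgClosure ℚ (AlgebraicClosure ℚ) := ⟨inferInstance, inferInstance⟩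
  have : Normal ℚ (AlgebraicClosure ℚ) := IsAlgClosure.normal ℚ _
  have : Normal ℚ K := normalClosure.normal ℚ L _
  have : FiniteDimensional ℚ K := normalClosure.is_finiteDimensional ℚ L _
  let π := AlgEquiv.restrictNormalHom (F := ℚ) (K₁ := AlgebraicClosure ℚ) K
  have hle : π.ker ≤ f.ker := fun σ hσ => MonoidHom.mem_ker.mpr <| hker σ fun x hx => by
    have hxK : x ∈ K := IntermediateField.le_normalClosure L hx
    have h2 := AlgEquiv.restrictNormal_commutes σ K ⟨x, hxK⟩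
    rw [show AlgEquiv.restrictNormal σ K = π σ from rfl, MonoidHom.mem_ker.mp hσ] at h2
    exact h2.symm
  have hsurj : Function.Surjective π := AlgEquiv.restrictNormalHom_surjective _
  let fbar := π.liftOfSurjective hsurj ⟨f, hle⟩
  have hcomp : ∀ σ, fbar (π σ) = f σ :=
    fun σ => MonoidHom.liftOfRightInverse_comp_apply _ _ _ _ σ
  let I := (A.inertiaSubgroupIn ℚ).map π
  let Q := Density.center K A
  have hI : I ≤ Q.inertia (K ≃ₐ[ℚ] K) := by
    rintro _ ⟨σ, hσ, rfl⟩
    exact Density.restrictNormalHom_mem_inertia hσ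
  have hQp : Q.IsPrime := Density.isPrime_center K A
  have hQq : (q : 𝓞 K) ∈ Q := Density.natCast_mem_center hA
  have hQ0 : Q ≠ ⊥ := Density.ne_bot_of_natCast_mem hq hQq
  have : FaithfulSMul I (𝓞 K) := ⟨fun {g h} hgh => by
    by_contra hne
    obtain ⟨a, ha⟩ := Density.exists_smul_ne (K := K) (σ := (h : K ≃ₐ[ℚ] K)⁻¹ * g)
      (fun e => hne (Subtype.ext (inv_mul_eq_one.mp e).symm))
    exact ha (by rw [mul_smul]; exact inv_smul_eq_iff.mpr (hgh a))⟩
  have hcommI := commute_map_of_mem_inertia (R := 𝓞 K) (G := I) (hQp.isMaximal hQ0) hQ0 hq hQq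
    (fbar.comp I.subtype) (by
      rintro ⟨_, σ, hσ, rfl⟩ -
      obtain ⟨N, hN, hfN⟩ := hord σ hσ
      exact ⟨N, hN, by rw [MonoidHom.comp_apply, Subgroup.coe_subtype, hcomp]; exact hfN⟩)
  intro σ hσ τ hτ
  have h := hcommI ⟨π σ, σ, hσ, rfl⟩ (fun x => hI ⟨σ, hσ, rfl⟩ x) ⟨π τ, τ, hτ, rfl⟩
    (fun x => hI ⟨τ, hτ, rfl⟩ x)
  simpa [hcomp] using h

end Fermat.Agent.Lifting.Residual
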