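import Fermat.Agent.Lifting.Residual.KernelOrbit
import Fermat.Agent.Lifting.Residual.TameAbelian
import Fermat.Agent.EC.Det.Cyclotomic
import Mathlib.LinearAlgebra.Eigenspace.Basic

/-!
# The image of `E[p]` is not dihedral

`W` semistable, `p` odd, `E[p]` absolutely irreducible and without non-trivial unipotent element:
then no subgroup of index `2` of `Γ_ℚ` stabilises a line over a field extension.
-/

set_option autoImplicit false

noncomputable section

open WeierstrassCurve.Affine.Point (galoisRepModuleEnd IsGaloisStable)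
open scoped WeierstrassCurve.Affine

namespace Fermat.Agent.Lifting.Residual

open EC.Reducible

local notation "ℚ̄" => AlgebraicClosure ℚ
local notation "Γℚ" => (AlgebraicClosure ℚ ≃ₐ[ℚ] AlgebraicClosure ℚ)

section General

theorem zmod_three_cases : ∀ e : ZMod 3, e = 0 ∨ e = 1 ∨ e = 2 := by decide

/-- A central endomorphism is a scalar. -/
theorem exists_eq_smul_one_of_central {k V : Type*} [Field k] [AddCommGroup V] [Module k V]
    (X : Module.End k V) (h : ∀ Y : Module.End k V, X * Y = Y * X) :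
    ∃ c : k, X = c • 1 := by
  rcases subsingleton_or_nontrivial V with hV | hV
  · exact ⟨0, LinearMap.ext fun v => Subsingleton.elim _ _⟩
  obtain ⟨u, hu⟩ := exists_ne (0 : V)
  obtain ⟨φ, hφ⟩ : ∃ φ : V →ₗ[k] k, φ u = 1 := by
    obtain ⟨φ, hφ⟩ := (LinearMap.toSpanSingleton k V u).exists_leftInverse_of_injective
      (by rw [LinearMap.ker_eq_bot]; exact smul_left_injective k hu)
    exact ⟨φ, by simpa using LinearMap.congr_fun hφ 1⟩
  refine ⟨φ (X u), LinearMap.ext fun v => ?_⟩
  have := LinearMap.congr_fun (h (φ.smulRight v)) u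
  simpa [Module.End.mul_apply, hφ] using this

variable {K U : Type*} [Field K] [AddCommGroup U] [Module K U]

/-- The determinant of an endomorphism of a plane, in a basis `v, w`. -/
theorem det_eq_of_basis (b : Module.Basis (Fin 2) K U) (X : Module.End K U) {x y z t : K}
    (hv : X (b 0) = x • b 0 + y • b 1) (hw : X (b 1) = z • b 0 + t • b 1) :
    LinearMap.det X = x * t - z * y := by
  rw [← LinearMap.det_toMatrix b, Matrix.det_fin_two]
  simp [LinearMap.toMatrix_apply, hv, hw]

/-- If `det (X - 1) ≠ 0` then `X - 1` is surjective. -/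
theorem range_eq_top_of_det_ne_zero [Module.Finite K U] (X : Module.End K U)
    (h : LinearMap.det X ≠ 0) : LinearMap.range X = ⊤ :=
  (LinearMap.isUnit_iff_range_eq_top X).mp
    ((LinearMap.isUnit_iff_isUnit_det X).mpr (isUnit_iff_ne_zero.mpr h))

end General

variable {W : WeierstrassCurve ℤ} {p : ℕ} [hp : Fact p.Prime]

/-- The representation on `E[p]`. -/
abbrev rep (W : WeierstrassCurve ℤ) (p : ℕ) :
    Γℚ →* Module.End (ZMod p) (Tors W p) :=
  galoisRepModuleEnd (K := ℚ̄) ℚ (W.map (Int.castRingHom ℚ)) p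

omit hp in
theorem rep_apply (σ : Γℚ) (x : Tors W p) : rep W p σ x = σ • x := rfl

/-- No non-trivial unipotent in the image. -/
def NoUnipotent (W : WeierstrassCurve ℤ) (p : ℕ) : Prop :=
  ∀ σ : Γℚ, (rep W p σ - 1) * (rep W p σ - 1) = 0 → rep W p σ = 1

/-- Without unipotents, the image consists of elements of order prime to `p`. -/
theorem exists_pow_eq_one (hΔ : W.Δ ≠ 0) (hnu : NoUnipotent W p) (σ : Γℚ) :
    ∃ N : ℕ, ¬ p ∣ N ∧ rep W p σ ^ N = 1 := by
  have := finiteDimensional_torsion (p := p) hΔ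
  have hfinT : Finite (Tors W p) := Module.finite_of_finite (ZMod p)
  have : Finite (Module.End (ZMod p) (Tors W p)) :=
    Finite.of_injective (fun f : Module.End (ZMod p) (Tors W p) => (f : Tors W p → Tors W p))
      DFunLike.coe_injective
  have hfo : IsOfFinOrder ((rep W p).toHomUnits σ) := isOfFinOrder_of_finite _
  have hpos : 0 < orderOf ((rep W p).toHomUnits σ) := hfo.orderOf_pos
  obtain ⟨v, m, hm, hn⟩ := Nat.exists_eq_pow_mul_and_not_dvd hpos.ne' p hp.out.ne_one
  have hpow : rep W p σ ^ orderOf ((rep W p).toHomUnits σ) = 1 := by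
    rw [← MonoidHom.coe_toHomUnits, ← Units.val_pow_eq_pow_val, pow_orderOf_eq_one, Units.val_one]
  refine ⟨m, hm, ?_⟩
  rw [← map_pow]
  refine hnu (σ ^ m) ?_
  set u := rep W p (σ ^ m) with hu
  have hu1 : u ^ p ^ v = 1 := by
    rw [hu, map_pow, ← pow_mul, mul_comm, ← hn, hpow]
  have hnt : Nontrivial (Tors W p) :=
    Module.nontrivial_of_finrank_eq_succ (R := ZMod p) (finrank_torsion hΔ)
  have : CharP (Module.End (ZMod p) (Tors W p)) p :=
    charP_of_injective_algebraMap (algebraMap (ZMod p) (Module.End (ZMod p) (Tors W p))).injective p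
  have hnil : (u - 1) ^ p ^ v = 0 := by
    rw [sub_pow_char_pow_of_commute p v (Commute.one_right u), hu1, one_pow, sub_self]
  rw [← pow_two, ← LinearMap.ker_eq_top, eq_top_iff]
  intro x _
  have hx : x ∈ LinearMap.ker ((u - 1) ^ p ^ v) := by rw [hnil]; simp
  have h := Module.End.ker_pow_le_ker_pow_finrank (u - 1) (p ^ v) hx
  rwa [finrank_torsion hΔ] at h

/-- Away from `p` the image of inertia is trivial when there are no unipotents. -/
theorem rep_eq_one_of_inertia (hΔ : W.Δ ≠ 0) (hss : W.IsSemistableModel) (hnu : NoUnipotent W p)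
    {ℓ : ℕ} (hℓ : ℓ.Prime) (hℓp : ℓ ≠ p) {A : ValuationSubring ℚ̄} (hA : A.LiesOverPrime ℓ)
    {σ : Γℚ} (hσ : σ ∈ A.inertiaSubgroupIn ℚ) : rep W p σ = 1 := by
  refine hnu σ (LinearMap.ext fun x => ?_)
  show σ • (σ • x - x) - (σ • x - x) = 0
  have hn : ¬ ℓ ∣ p := fun h => hℓp ((Nat.prime_dvd_prime_iff_eq hℓ hp.out).mp h)
  exact sub_eq_zero.mpr (Subtype.ext
    (inertia_smul_sub_fixed W hΔ hℓ (hss ℓ hℓ) A hA hn hσ hσ (nsmul_coe_eq_zero x)))

/-- Minkowski for the image: a normal subgroup containing the kernel and inertia at one place over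
`p` is everything. -/
theorem eq_top_of_ker_le (hΔ : W.Δ ≠ 0) (hss : W.IsSemistableModel) (hnu : NoUnipotent W p)
    {A : ValuationSubring ℚ̄} (hA : A.LiesOverPrime p) (H : Subgroup Γℚ) [H.Normal]
    (hker : ∀ σ, rep W p σ = 1 → σ ∈ H) (hI : ∀ σ ∈ A.inertiaSubgroupIn ℚ, σ ∈ H) : H = ⊤ := by
  refine Galois.eq_top_of_forall_exists_inertia_le H
    (isOpen_of_fixes_torsion_le hΔ hp.out.ne_zero fun σ hσ => hker σ (LinearMap.ext hσ))
    fun ℓ hℓ => ?_
  by_cases hℓp : ℓ = p
  · exact ⟨A, hℓp ▸ hA, hI⟩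
  · obtain ⟨B, hB⟩ := Galois.exists_valuationSubring_liesOverPrime (L := ℚ̄) hℓ
    exact ⟨B, hB, fun σ hσ => hker σ (rep_eq_one_of_inertia hΔ hss hnu hℓ hℓp hB hσ)⟩

/-- The cyclotomic determinant takes a value other than `±1` when `p ≠ 3`. -/
theorem eq_three_of_det_sq_eq_one (hΔ : W.Δ ≠ 0) (hp2 : p ≠ 2)
    (h : ∀ σ, LinearMap.det (rep W p σ) * LinearMap.det (rep W p σ) = 1) : p = 3 := by
  have : NeZero p := ⟨hp.out.ne_zero⟩
  obtain ⟨A, σ, hA, hσ⟩ := Galois.exists_valuationSubring_isFrobeniusAt Nat.prime_two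
  have h2p : ¬ 2 ∣ p := fun h2 => hp2 ((Nat.prime_dvd_prime_iff_eq Nat.prime_two hp.out).mp h2).symm
  have h2 := h σ
  rw [EC.det_galoisRepModuleEnd_eq_cycloChar hΔ p σ,
    EC.cycloChar_eq_of_isFrobeniusAt Nat.prime_two h2p hA hσ] at h2
  have h3 : ((3 : ℕ) : ZMod p) = 0 := by
    push_cast at h2 ⊢
    linear_combination h2
  exact (Nat.prime_dvd_prime_iff_eq hp.out Nat.prime_three).mp
    ((ZMod.natCast_eq_zero_iff 3 p).mp h3)

/-- In characteristic `3` the trace `a + d` of an element of determinant `1` forces order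
dividing `12`. -/
theorem pow_twelve_eq_one {K : Type*} [Field K] (h3 : (3 : K) = 0) {a d : K} (had : a * d = 1)
    (h : a + d = 2 ∨ a + d = 1 ∨ a + d = 0) : a ^ 12 = 1 := by
  rcases h with h | h | h
  · have : a ^ 3 = 1 := by
      have : a ^ 2 + a + 1 = 0 := by linear_combination a * h - had + a * h3
      linear_combination (a - 1) * this
    linear_combination (a ^ 9 + a ^ 6 + a ^ 3 + 1) * this
  · have : a ^ 3 = -1 := by
      have : a ^ 2 - a + 1 = 0 := by linear_combination a * h - had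
      linear_combination (a + 1) * this
    linear_combination (a ^ 9 - a ^ 6 + a ^ 3 - 1) * this
  · have : a ^ 2 = -1 := by linear_combination a * h - had
    linear_combination (a ^ 10 - a ^ 8 + a ^ 6 - a ^ 4 + a ^ 2 - 1) * this

/-- **The image is not dihedral.** `B` is a faithful extension of scalars of `End E[p]`. -/
theorem false_of_stable_line (hΔ : W.Δ ≠ 0) (hss : W.IsSemistableModel) (hp2 : p ≠ 2)
    (hnu : NoUnipotent W p) {K U : Type*} [Field K] [AddCommGroup U] [Module K U]
    (hU : Module.finrank K U = 2)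
    (φ : ZMod p →+* K) (B : Module.End (ZMod p) (Tors W p) →+* Module.End K U)
    (hB : Function.Injective B)
    (hdet : ∀ X, LinearMap.det (B X) = φ (LinearMap.det X))
    (hirr : ∀ u : U, u ≠ 0 → ¬ ∀ σ : Γℚ, ∃ c : K, B (rep W p σ) u = c • u)
    (G : Subgroup Γℚ) (hG : G.index = 2) {v : U} (hv0 : v ≠ 0)
    (hv : ∀ σ ∈ G, ∃ c : K, B (rep W p σ) v = c • v) : False := by
  have : Module.Finite K U := Module.finite_of_finrank_eq_succ hU
  have hTfin := finiteDimensional_torsion (p := p) hΔ
  have hGn : G.Normal := Subgroup.normal_of_index_eq_two hG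
  let R : Γℚ →* Module.End K U := B.toMonoidHom.comp (rep W p)
  have hRdet : ∀ σ, LinearMap.det (R σ) = φ (LinearMap.det (rep W p σ)) := fun σ => hdet _
  have hRdet1 : ∀ σ, LinearMap.det (R σ - 1) = φ (LinearMap.det (rep W p σ - 1)) := fun σ => by
    rw [← hdet, map_sub B, map_one B]; rfl
  have hR1 : ∀ σ, R σ = 1 ↔ rep W p σ = 1 := fun σ =>
    ⟨fun h => hB (h.trans (map_one B).symm), fun h => by
      show B (rep W p σ) = 1
      rw [h, map_one]⟩
  have hRinj : ∀ σ u, R σ u = 0 → u = 0 := fun σ u hu => by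
    have h : R σ⁻¹ (R σ u) = u := by
      rw [← Module.End.mul_apply, ← map_mul, inv_mul_cancel, map_one, Module.End.one_apply]
    rw [← h, hu, map_zero]
  -- the two lines
  obtain ⟨g, hg⟩ : ∃ g, g ∉ G := by
    by_contra h
    simp only [not_exists, not_not] at h
    rw [(Subgroup.eq_top_iff' G).mpr h, Subgroup.index_top] at hG
    exact absurd hG (by norm_num)
  let w := R g v
  have hwv : ∀ c : K, w ≠ c • v := by
    intro c hc
    refine hirr v hv0 fun σ => ?_
    by_cases hσ : σ ∈ G
    · exact hv σ hσ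
    · obtain ⟨a, ha⟩ := hv (g⁻¹ * σ) (by
        rw [Subgroup.mul_mem_iff_of_index_two hG, inv_mem_iff]; tauto)
      refine ⟨a * c, ?_⟩
      show R σ v = _
      rw [show σ = g * (g⁻¹ * σ) by rw [mul_inv_cancel_left], map_mul, Module.End.mul_apply,
        show R (g⁻¹ * σ) v = a • v from ha, map_smul, show R g v = c • v from hc, smul_smul]
  have hli : LinearIndependent K ![v, w] := by
    rw [LinearIndependent.pair_iff]
    intro s t hst
    have ht : t = 0 := by
      by_contra ht
      refine hwv (-s / t) ?_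
      rw [div_eq_inv_mul, mul_smul, neg_smul, eq_inv_smul_iff₀ ht]
      exact eq_neg_of_add_eq_zero_right hst
    subst ht
    simp only [zero_smul, add_zero, smul_eq_zero, hv0, or_false] at hst
    exact ⟨hst, rfl⟩
  let b := basisOfLinearIndependentOfCardEqFinrank hli (by simp [hU])
  have hb0 : b 0 = v := by simp [b]
  have hb1 : b 1 = w := by simp [b]
  have hext : ∀ X Y : Module.End K U, X v = Y v → X w = Y w → X = Y := fun X Y h0 h1 => by
    refine b.ext fun i => ?_
    fin_cases i
    · simpa [hb0] using h0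
    · simpa [hb1] using h1
  -- shapes
  have hin : ∀ σ ∈ G, ∃ a d : K, R σ v = a • v ∧ R σ w = d • w := by
    intro σ hσ
    obtain ⟨a, ha⟩ := hv σ hσ
    obtain ⟨d, hd⟩ := hv (g⁻¹ * σ * g) (by simpa using hGn.conj_mem σ hσ g⁻¹)
    refine ⟨a, d, ha, ?_⟩
    show R σ (R g v) = d • R g v
    rw [← Module.End.mul_apply, ← map_mul, show σ * g = g * (g⁻¹ * σ * g) by group, map_mul,
      Module.End.mul_apply, show R (g⁻¹ * σ * g) v = d • v from hd, map_smul]
  have hout : ∀ σ ∉ G, ∃ x y : K, x ≠ 0 ∧ R σ v = x • w ∧ R σ w = y • v := by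
    intro σ hσ
    obtain ⟨x, hx⟩ := hv (g⁻¹ * σ) (by
      rw [Subgroup.mul_mem_iff_of_index_two hG, inv_mem_iff]; tauto)
    obtain ⟨y, hy⟩ := hv (σ * g) (by rw [Subgroup.mul_mem_iff_of_index_two hG]; tauto)
    have hxv : R σ v = x • w := by
      rw [show σ = g * (g⁻¹ * σ) by rw [mul_inv_cancel_left], map_mul, Module.End.mul_apply,
        show R (g⁻¹ * σ) v = x • v from hx, map_smul]
    refine ⟨x, y, fun h0 => hv0 (hRinj σ v (by rw [hxv, h0, zero_smul])), hxv, ?_⟩
    show R σ (R g v) = y • v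
    rw [← Module.End.mul_apply, ← map_mul]
    exact hy
  have hcomm : ∀ σ ∈ G, ∀ τ ∈ G, R σ * R τ = R τ * R σ := by
    intro σ hσ τ hτ
    obtain ⟨a, d, ha, hd⟩ := hin σ hσ
    obtain ⟨a', d', ha', hd'⟩ := hin τ hτ
    exact hext _ _
      (by simp only [Module.End.mul_apply, ha', ha, map_smul, smul_smul, mul_comm a])
      (by simp only [Module.End.mul_apply, hd', hd, map_smul, smul_smul, mul_comm d])
  have hker : ∀ σ, rep W p σ = 1 → σ ∈ G := by
    intro σ hσ
    by_contra hσG
    obtain ⟨x, y, hx, hxv, -⟩ := hout σ hσG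
    rw [(hR1 σ).mpr hσ, Module.End.one_apply] at hxv
    refine hwv x⁻¹ ?_
    rw [eq_inv_smul_iff₀ hx, ← hxv]
  have hsq : ∀ σ ∉ G, R σ * R σ = (-LinearMap.det (R σ)) • 1 := by
    intro σ hσ
    obtain ⟨x, y, -, hxv, hyw⟩ := hout σ hσ
    have hd : LinearMap.det (R σ) = 0 * 0 - y * x :=
      det_eq_of_basis b _ (by simp [hb0, hb1, hxv]) (by simp [hb0, hb1, hyw])
    refine hext _ _ ?_ ?_ <;>
      simp [Module.End.mul_apply, hxv, hyw, hd, smul_smul, mul_comm]
  -- an inertia element outside `G`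
  obtain ⟨A, hA⟩ := Galois.exists_valuationSubring_liesOverPrime (L := ℚ̄) hp.out
  obtain ⟨s, hsI, hsG⟩ : ∃ s ∈ A.inertiaSubgroupIn ℚ, s ∉ G := by
    by_contra h
    simp only [not_exists, not_and, not_not] at h
    exact hg (eq_top_of_ker_le hΔ hss hnu hA G hker h ▸ Subgroup.mem_top g)
  have hcommI : ∀ τ ∈ A.inertiaSubgroupIn ℚ, rep W p s * rep W p τ = rep W p τ * rep W p s := by
    intro τ hτ
    obtain ⟨L, hL, hfix⟩ : GaloisFactorsThroughFiniteLevel (rep W p) :=
      haveI := isElliptic_rat W hΔ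
      EC.galoisRepModuleEnd_factorsThroughFiniteLevel _ hp.out.ne_zero
    have h := commute_map_inertiaSubgroupIn (rep W p).toHomUnits
      ⟨L, hL, fun σ hσ => Units.ext (by rw [MonoidHom.coe_toHomUnits, hfix σ hσ]; rfl)⟩ hp.out hA
      (fun σ _ => by
        obtain ⟨N, hN, hσN⟩ := exists_pow_eq_one hΔ hnu σ
        exact ⟨N, hN, Units.ext (by
          rw [Units.val_pow_eq_pow_val, MonoidHom.coe_toHomUnits, hσN]; rfl)⟩)
      s hsI τ hτ
    simpa using congrArg Units.val h.eq
  have hscal : ∀ τ ∈ A.inertiaSubgroupIn ℚ, τ ∈ G → ∃ c : K, R τ = c • 1 := by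
    intro τ hτ hτG
    obtain ⟨a, d, ha, hd⟩ := hin τ hτG
    obtain ⟨x, y, hx, hxv, -⟩ := hout s hsG
    have h := LinearMap.congr_fun (congrArg B (hcommI τ hτ)) v
    rw [map_mul, map_mul, Module.End.mul_apply, Module.End.mul_apply] at h
    change R s (R τ v) = R τ (R s v) at h
    rw [ha, map_smul, hxv, map_smul, hd, smul_smul, smul_smul, mul_comm a] at h
    have hw0 : w ≠ 0 := fun h0 => hwv 0 (by rw [h0, zero_smul])
    have had : a = d := mul_left_cancel₀ hx (smul_left_injective K hw0 h)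
    exact ⟨a, hext _ _ (by simpa using ha) (by simpa [had] using hd)⟩
  have hzero1 : ∀ τ ∉ G, LinearMap.det (R τ - 1) = 0 → R τ * R τ = 1 ∧
      LinearMap.det (R τ) = -1 := by
    intro τ hτ h0
    obtain ⟨x, y, -, hxv, hyw⟩ := hout τ hτ
    have hd : LinearMap.det (R τ) = 0 * 0 - y * x :=
      det_eq_of_basis b _ (by simp [hb0, hb1, hxv]) (by simp [hb0, hb1, hyw])
    have hd1 : LinearMap.det (R τ - 1) = (-1) * (-1) - y * x :=
      det_eq_of_basis b _ (by simp [hb0, hb1, hxv, LinearMap.sub_apply]; abel)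
        (by simp [hb0, hb1, hyw, LinearMap.sub_apply]; abel)
    have hdm : LinearMap.det (R τ) = -1 := by
      rw [hd]; rw [hd1] at h0; linear_combination h0
    exact ⟨by rw [hsq τ hτ, hdm, neg_neg, one_smul], hdm⟩
  by_cases htop : kernelTors W A = (⊤ : Submodule (ZMod p) (Tors W p))
  · -- everything reduces to the origin: inertia orbits are too small
    have hscalT : ∀ τ, (∃ c : K, R τ = c • 1) → ∃ c : ZMod p, rep W p τ = c • 1 := by
      rintro τ ⟨c, hc⟩
      refine exists_eq_smul_one_of_central _ fun Y => hB ?_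
      rw [map_mul, map_mul, show B (rep W p τ) = c • 1 from hc, smul_one_mul, mul_smul_one]
    obtain ⟨l, hl⟩ := hscalT (s * s) ⟨_, (map_mul R s s).trans (hsq s hsG)⟩
    have hl0 : l ≠ 0 := by
      rintro rfl
      rw [zero_smul] at hl
      refine hv0 (hRinj (s * s) v ?_)
      show B (rep W p (s * s)) v = 0
      rw [hl, map_zero, LinearMap.zero_apply]
    have horbit : ∀ τ ∈ A.inertiaSubgroupIn ℚ, ∀ x : Tors W p,
        ∃ c : ZMod p, τ • x = c • x ∨ τ • x = c • (s • x) := by
      intro τ hτ x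
      by_cases hτG : τ ∈ G
      · obtain ⟨c, hc⟩ := hscalT τ (hscal τ hτ hτG)
        exact ⟨c, Or.inl (LinearMap.congr_fun hc x)⟩
      · have hsτ : s * τ ∈ G := (Subgroup.mul_mem_iff_of_index_two hG).mpr (by tauto)
        obtain ⟨c, hc⟩ := hscalT (s * τ) (hscal _ (mul_mem hsI hτ) hsτ)
        refine ⟨l⁻¹ * c, Or.inr ?_⟩
        have h1 : (s * s) • τ • x = l • (τ • x) := LinearMap.congr_fun hl _
        have h2 : s • ((s * τ) • x) = s • (c • x) := congrArg (s • ·) (LinearMap.congr_fun hc x)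
        rw [mul_smul, eq_inv_smul_iff₀ hl0, ← h1, mul_smul, ← mul_smul s τ x, h2]
        exact map_smul (rep W p s) c x
    have hnt : Nontrivial (Tors W p) :=
      Module.nontrivial_of_finrank_eq_succ (R := ZMod p) (finrank_torsion hΔ)
    obtain ⟨x, hx⟩ := exists_ne (0 : Tors W p)
    have hall : ∀ y : Tors W p,
        y ∈ Submodule.span (ZMod p) {x} ∨ y ∈ Submodule.span (ZMod p) {s • x} := by
      intro y
      by_cases hy : y = 0
      · exact Or.inl (hy ▸ Submodule.zero_mem _)
      obtain ⟨τ, hτ, h⟩ := exists_smul_eq_or_eq_neg W hΔ hp2 A hA htop hx hy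
      obtain ⟨c, hc⟩ := horbit τ hτ x
      rcases hc with hc | hc <;> rcases h with h | h
      · exact Or.inl (Submodule.mem_span_singleton.mpr ⟨c, by rw [← hc, h]⟩)
      · exact Or.inl (Submodule.mem_span_singleton.mpr ⟨-c, by rw [neg_smul, ← hc, h, neg_neg]⟩)
      · exact Or.inr (Submodule.mem_span_singleton.mpr ⟨c, by rw [← hc, h]⟩)
      · exact Or.inr (Submodule.mem_span_singleton.mpr ⟨-c, by rw [neg_smul, ← hc, h, neg_neg]⟩)
    obtain ⟨y, hy⟩ : ∃ y : Tors W p, y ∉ Submodule.span (ZMod p) {x} := by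
      by_contra h
      simp only [not_exists, not_not] at h
      have h2 : (2 : ℕ) ≤ 1 := by
        rw [← finrank_torsion (p := p) hΔ, ← finrank_top (ZMod p) (Tors W p),
          ← Submodule.eq_top_iff'.mpr h]
        exact (finrank_span_singleton hx).le
      omega
    have hy' := (hall y).resolve_left hy
    rcases hall (y + x) with h | h
    · exact hy (by simpa using Submodule.sub_mem _ h (Submodule.mem_span_singleton_self x))
    · have hxs : x ∈ Submodule.span (ZMod p) {s • x} := by
        simpa using Submodule.sub_mem _ h hy'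
      obtain ⟨c, hc⟩ := Submodule.mem_span_singleton.mp hxs
      have hc0 : c ≠ 0 := fun h0 => hx (by rw [← hc, h0, zero_smul])
      have hsx : s • x ∈ Submodule.span (ZMod p) {x} :=
        Submodule.mem_span_singleton.mpr ⟨c⁻¹, by rw [inv_smul_eq_iff₀ hc0, hc]⟩
      exact hy ((Submodule.span_singleton_le_iff_mem _ _).mpr hsx hy')
  -- some torsion survives reduction: inertia fixes something modulo the kernel
  have hdet0 : ∀ τ ∈ A.inertiaSubgroupIn ℚ, LinearMap.det (R τ - 1) = 0 := by
    intro τ hτ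
    rw [hRdet1]
    by_contra h
    refine htop (eq_top_iff.mpr ?_)
    rw [← range_eq_top_of_det_ne_zero (rep W p τ - 1) fun h0 => h (by rw [h0, map_zero])]
    rintro _ ⟨x, rfl⟩
    exact inertia_sub_mem_kernelAt W hΔ hp.out (hss p hp.out) A hA hτ (nsmul_coe_eq_zero x)
  have hinI : ∀ τ ∈ A.inertiaSubgroupIn ℚ, τ ∈ G → R τ = 1 := by
    intro τ hτ hτG
    obtain ⟨c, hc⟩ := hscal τ hτ hτG
    have h := hdet0 τ hτ
    rw [hc, show c • (1 : Module.End K U) - 1 = (c - 1) • 1 by rw [sub_smul, one_smul],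
      LinearMap.det_smul, hU,
      map_one, mul_one, sq, mul_self_eq_zero] at h
    rw [hc, sub_eq_zero.mp h, one_smul]
  obtain ⟨hss1, hsdet⟩ := hzero1 s hsG (hdet0 s hsI)
  have houtI : ∀ τ ∈ A.inertiaSubgroupIn ℚ, τ ∉ G → R τ = R s := by
    intro τ hτ hτG
    have h := hinI (s * τ) (mul_mem hsI hτ)
      ((Subgroup.mul_mem_iff_of_index_two hG).mpr (by tauto))
    rw [map_mul] at h
    calc R τ = R s * R s * R τ := by rw [hss1, one_mul]
      _ = R s := by rw [mul_assoc, h, mul_one]
  -- the determinant is `±1`, hence `p = 3`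
  let D : Γℚ →* K := (LinearMap.det : Module.End K U →* K).comp R
  have hD : ∀ σ, D σ * D σ = 1 := by
    let H : Subgroup Γℚ :=
      { carrier := {σ | D σ * D σ = 1}
        one_mem' := by simp
        mul_mem' := fun {x y} (hx : D x * D x = 1) (hy : D y * D y = 1) => by
          show D (x * y) * D (x * y) = 1
          rw [map_mul]; linear_combination (D y * D y) * hx + hy
        inv_mem' := fun {x} (hx : D x * D x = 1) => by
          show D x⁻¹ * D x⁻¹ = 1
          have h : D x⁻¹ * D x = 1 := by rw [← map_mul, inv_mul_cancel, map_one]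
          linear_combination (-(D x⁻¹ * D x⁻¹)) * hx + (D x⁻¹ * D x + 1) * h }
    have : H.Normal := ⟨fun x (hx : D x * D x = 1) y => by
      show D (y * x * y⁻¹) * D (y * x * y⁻¹) = 1
      have h : D y * D y⁻¹ = 1 := by rw [← map_mul, mul_inv_cancel, map_one]
      rw [map_mul, map_mul]
      linear_combination (D y * D y⁻¹) ^ 2 * hx + (D y * D y⁻¹ + 1) * h⟩
    have hH : H = ⊤ := eq_top_of_ker_le hΔ hss hnu hA H
      (fun σ hσ => by
        show LinearMap.det (R σ) * LinearMap.det (R σ) = 1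
        rw [(hR1 σ).mpr hσ, map_one, one_mul])
      (fun σ hσ => by
        show LinearMap.det (R σ) * LinearMap.det (R σ) = 1
        by_cases hσG : σ ∈ G
        · rw [hinI σ hσ hσG, map_one, one_mul]
        · rw [(hzero1 σ hσG (hdet0 σ hσ)).2]; ring)
    intro σ
    exact (hH ▸ Subgroup.mem_top σ : σ ∈ H)
  have hp3 : p = 3 := eq_three_of_det_sq_eq_one hΔ hp2 fun σ => φ.injective (by
    rw [map_mul, ← hRdet, map_one]; exact hD σ)
  subst hp3
  have h3K : (3 : K) = 0 := by
    rw [show (3 : K) = φ 3 by rw [map_ofNat], show (3 : ZMod 3) = 0 from rfl, map_zero]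
  have hne : (-1 : K) ≠ 1 := fun h => one_ne_zero (show (1 : K) = 0 by linear_combination h + h3K)
  have hD' : ∀ σ, D σ = 1 ∨ D σ = -1 := fun σ => mul_self_eq_one_iff.mp (hD σ)
  -- `G` is the kernel of the determinant
  have hGD : ∀ σ, σ ∈ G ↔ D σ = 1 := by
    let H : Subgroup Γℚ :=
      { carrier := {σ | σ ∈ G ↔ D σ = 1}
        one_mem' := by simp
        mul_mem' := fun {x y} (hx : x ∈ G ↔ D x = 1) (hy : y ∈ G ↔ D y = 1) => by
          show x * y ∈ G ↔ D (x * y) = 1
          rw [Subgroup.mul_mem_iff_of_index_two hG, hx, hy, map_mul]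
          rcases hD' x with a | a <;> rcases hD' y with c | c <;> simp [a, c, hne]
        inv_mem' := fun {x} (hx : x ∈ G ↔ D x = 1) => by
          show x⁻¹ ∈ G ↔ D x⁻¹ = 1
          have h : D x⁻¹ * D x = 1 := by rw [← map_mul, inv_mul_cancel, map_one]
          rw [inv_mem_iff, hx]
          constructor <;> intro e <;> simpa [e] using h }
    have : H.Normal := ⟨fun x (hx : x ∈ G ↔ D x = 1) y => by
      show y * x * y⁻¹ ∈ G ↔ D (y * x * y⁻¹) = 1
      have h : D y * D y⁻¹ = 1 := by rw [← map_mul, mul_inv_cancel, map_one]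
      rw [map_mul, map_mul, show D y * D x * D y⁻¹ = D x by linear_combination D x * h, ← hx,
        Subgroup.mul_mem_iff_of_index_two hG, Subgroup.mul_mem_iff_of_index_two hG, inv_mem_iff]
      tauto⟩
    have hH : H = ⊤ := eq_top_of_ker_le hΔ hss hnu hA H
      (fun σ hσ => iff_of_true (hker σ hσ) (by
        show LinearMap.det (R σ) = 1
        rw [(hR1 σ).mpr hσ, map_one]))
      (fun σ hσ => by
        show σ ∈ G ↔ LinearMap.det (R σ) = 1
        by_cases hσG : σ ∈ G
        · exact iff_of_true hσG (by rw [hinI σ hσ hσG, map_one])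
        · exact iff_of_false hσG (by rw [(hzero1 σ hσG (hdet0 σ hσ)).2]; exact hne))
    intro σ
    exact (hH ▸ Subgroup.mem_top σ : σ ∈ H)
  have hinvol : ∀ σ ∉ G, R σ * R σ = 1 := by
    intro σ hσ
    have hd : LinearMap.det (R σ) = -1 := (hD' σ).resolve_left fun h => hσ ((hGD σ).mpr h)
    rw [hsq σ hσ, hd, neg_neg, one_smul]
  have hswap : ∀ τ ∈ G, R s * R τ = R τ⁻¹ * R s := by
    intro τ hτ
    have h := hinvol (τ * s) (fun h => hsG ((Subgroup.mul_mem_cancel_left G hτ).mp h))
    rw [map_mul] at h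
    have hinv : R τ⁻¹ * R τ = 1 := by rw [← map_mul, inv_mul_cancel, map_one]
    calc R s * R τ = (R τ⁻¹ * R τ) * (R s * R τ) * (R s * R s) := by
          rw [hinv, hss1, one_mul, mul_one]
      _ = R τ⁻¹ * ((R τ * R s) * (R τ * R s)) * R s := by noncomm_ring
      _ = R τ⁻¹ * R s := by rw [h, mul_one]
  have hcommK : ∀ x ∈ G, ∀ y ∈ G, R x * R x * (R y * R y) = R (x * y) * R (x * y) := by
    intro x hx y hy
    calc R x * R x * (R y * R y) = R x * (R x * R y) * R y := by noncomm_ring
      _ = R x * (R y * R x) * R y := by rw [hcomm x hx y hy]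
      _ = _ := by rw [map_mul]; noncomm_ring
  -- every element of the image of `G` is a square
  have hsquare : ∀ σ ∈ G, ∃ τ ∈ G, R σ = R τ * R τ := by
    let H : Subgroup Γℚ :=
      { carrier := {σ | ∃ τ ∈ G, R σ = R τ * R τ ∨ R σ = R s * (R τ * R τ)}
        one_mem' := ⟨1, one_mem G, Or.inl (by simp)⟩
        mul_mem' := by
          rintro x y ⟨a, ha, hx⟩ ⟨c, hc, hy⟩
          have e1 : R a * R a * R s = R s * (R a⁻¹ * R a⁻¹) := by
            rw [← mul_assoc (R s), hswap _ (inv_mem ha), inv_inv, mul_assoc (R a) (R s),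
              hswap _ (inv_mem ha), inv_inv, ← mul_assoc]
          rcases hx with hx | hx <;> rcases hy with hy | hy
          · exact ⟨a * c, mul_mem ha hc, Or.inl (by rw [map_mul, hx, hy, hcommK a ha c hc])⟩
          · refine ⟨a⁻¹ * c, mul_mem (inv_mem ha) hc, Or.inr ?_⟩
            rw [map_mul, hx, hy, ← mul_assoc, e1, mul_assoc (R s), hcommK _ (inv_mem ha) c hc]
          · refine ⟨a * c, mul_mem ha hc, Or.inr ?_⟩
            rw [map_mul, hx, hy, mul_assoc, hcommK a ha c hc]
          · refine ⟨a⁻¹ * c, mul_mem (inv_mem ha) hc, Or.inl ?_⟩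
            rw [map_mul, hx, hy, mul_assoc (R s), ← mul_assoc (R a * R a), e1, ← mul_assoc (R s),
              ← mul_assoc (R s), hss1, one_mul, hcommK _ (inv_mem ha) c hc]
        inv_mem' := by
          rintro x ⟨a, ha, hx⟩
          have hxx : R x⁻¹ * R x = 1 := by rw [← map_mul, inv_mul_cancel, map_one]
          have haa : R a * R a * (R a⁻¹ * R a⁻¹) = 1 := by
            rw [hcommK a ha _ (inv_mem ha), mul_inv_cancel, map_one, one_mul]
          rcases hx with hx | hx
          · refine ⟨a⁻¹, inv_mem ha, Or.inl ?_⟩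
            calc R x⁻¹ = R x⁻¹ * (R a * R a * (R a⁻¹ * R a⁻¹)) := by rw [haa, mul_one]
              _ = _ := by rw [← mul_assoc, ← hx, hxx, one_mul]
          · refine ⟨a, ha, Or.inr ?_⟩
            have hsq' : R x * R x = 1 := by
              rw [← hinvol x]
              intro hxG
              have hdx : LinearMap.det (R x) = LinearMap.det (R a) * LinearMap.det (R a) *
                  LinearMap.det (R s) := by rw [hx, map_mul, map_mul]; ring
              have h1 : LinearMap.det (R x) = 1 := (hGD x).mp hxG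
              rw [h1, hsdet, show LinearMap.det (R a) = 1 from (hGD a).mp ha] at hdx
              exact hne (by linear_combination -hdx)
            calc R x⁻¹ = R x⁻¹ * (R x * R x) := by rw [hsq', mul_one]
              _ = _ := by rw [← mul_assoc, hxx, one_mul, hx] }
    have : H.Normal := ⟨by
      rintro x ⟨a, ha, hx⟩ y
      have hyy : R y * R y⁻¹ = 1 := by rw [← map_mul, mul_inv_cancel, map_one]
      by_cases hy : y ∈ G
      · rcases hx with hx | hx
        · refine ⟨a, ha, Or.inl ?_⟩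
          have hc' : R y * (R a * R a) = (R a * R a) * R y := by
            rw [← map_mul R a a]; exact hcomm y hy _ (mul_mem ha ha)
          rw [map_mul, map_mul, hx, hc', mul_assoc, hyy, mul_one]
        · refine ⟨y⁻¹ * a, mul_mem (inv_mem hy) ha, Or.inr ?_⟩
          have hc' : R a * R a * R y⁻¹ = R y⁻¹ * (R a * R a) := by
            rw [← map_mul R a a]; exact hcomm _ (mul_mem ha ha) _ (inv_mem hy)
          rw [map_mul, map_mul, hx, ← mul_assoc (R y),
            show R y * R s = R s * R y⁻¹ by rw [hswap _ (inv_mem hy), inv_inv],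
            mul_assoc (R s * R y⁻¹), hc', mul_assoc (R s), ← mul_assoc (R y⁻¹) (R y⁻¹),
            hcommK _ (inv_mem hy) a ha]
      · have hy2 : R y⁻¹ = R y := by
          calc R y⁻¹ = R y⁻¹ * (R y * R y) := by rw [hinvol y hy, mul_one]
            _ = R y := by rw [← mul_assoc, ← map_mul, inv_mul_cancel, map_one, one_mul]
        have hys : s * y ∈ G := (Subgroup.mul_mem_iff_of_index_two hG).mpr (by tauto)
        have hy' : R y = R s * R (s * y) := by rw [map_mul, ← mul_assoc, hss1, one_mul]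
        rcases hx with hx | hx
        · refine ⟨a⁻¹, inv_mem ha, Or.inl ?_⟩
          have hyswap : ∀ c ∈ G, R y * R c = R c⁻¹ * R y := by
            intro c hc
            rw [hy', mul_assoc, hcomm _ hys c hc, ← mul_assoc, hswap c hc, mul_assoc]
          rw [map_mul, map_mul, hx, hy2, ← mul_assoc (R y), hyswap a ha, mul_assoc (R a⁻¹),
            hyswap a ha, mul_assoc, mul_assoc, hinvol y hy, mul_one]
        · refine ⟨(s * y) * a⁻¹, mul_mem hys (inv_mem ha), Or.inr ?_⟩
          rw [map_mul, map_mul, hx, hy2, hy', ← hcommK _ hys _ (inv_mem ha)]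
          have e1 : R (s * y) * R s = R s * R (s * y)⁻¹ := by
            rw [hswap _ (inv_mem hys), inv_inv]
          have e2 : R a * R a * R s = R s * (R a⁻¹ * R a⁻¹) := by
            rw [← mul_assoc (R s), hswap _ (inv_mem ha), inv_inv, mul_assoc (R a) (R s),
              hswap _ (inv_mem ha), inv_inv, ← mul_assoc]
          have e3 : R a⁻¹ * R a⁻¹ * R (s * y) = R (s * y) * (R a⁻¹ * R a⁻¹) := by
            rw [← map_mul R a⁻¹ a⁻¹]; exact hcomm _ (mul_mem (inv_mem ha) (inv_mem ha)) _ hys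
          calc R s * R (s * y) * (R s * (R a * R a)) * (R s * R (s * y))
              = R s * (R (s * y) * R s) * (R a * R a * R s) * R (s * y) := by noncomm_ring
            _ = R s * (R (s * y) * R s * R s) * (R a⁻¹ * R a⁻¹ * R (s * y)) := by
                rw [e2]; noncomm_ring
            _ = R s * R (s * y) * (R (s * y) * (R a⁻¹ * R a⁻¹)) := by
                rw [mul_assoc (R (s * y)), hss1, mul_one, e3]
            _ = R s * (R (s * y) * R (s * y) * (R a⁻¹ * R a⁻¹)) := by noncomm_ring⟩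
    have hH : H = ⊤ := eq_top_of_ker_le hΔ hss hnu hA H
      (fun σ hσ => ⟨1, one_mem G, Or.inl (by rw [(hR1 σ).mpr hσ]; simp)⟩)
      (fun σ hσ => by
        by_cases hσG : σ ∈ G
        · exact ⟨1, one_mem G, Or.inl (by rw [hinI σ hσ hσG]; simp)⟩
        · exact ⟨1, one_mem G, Or.inr (by rw [houtI σ hσ hσG]; simp)⟩)
    intro σ hσ
    obtain ⟨τ, hτ, h | h⟩ := (hH ▸ Subgroup.mem_top σ : σ ∈ H)
    · exact ⟨τ, hτ, h⟩
    · exfalso
      have h1 : LinearMap.det (R σ) = LinearMap.det (R s) *
          (LinearMap.det (R τ) * LinearMap.det (R τ)) := by rw [h, map_mul, map_mul]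
      rw [show LinearMap.det (R σ) = 1 from (hGD σ).mp hσ, hsdet,
        show LinearMap.det (R τ) = 1 from (hGD τ).mp hτ] at h1
      exact hne (by linear_combination -h1)
  -- the image of `G` is a finite group killed by `4` on which squaring is surjective
  have hfour : ∀ σ ∈ G, R σ ^ 4 = 1 := by
    intro σ hσ
    obtain ⟨a, d, ha, hd⟩ := hin σ hσ
    have hdet' : LinearMap.det (R σ) = a * d - 0 * 0 :=
      det_eq_of_basis b _ (by simp [hb0, hb1, ha]) (by simp [hb0, hb1, hd])
    have hdet1 : LinearMap.det (R σ - 1) = (a - 1) * (d - 1) - 0 * 0 :=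
      det_eq_of_basis b _ (by simp [hb0, hb1, ha, LinearMap.sub_apply, sub_smul])
        (by simp [hb0, hb1, hd, LinearMap.sub_apply, sub_smul])
    have had : a * d = 1 := by
      rw [show LinearMap.det (R σ) = 1 from (hGD σ).mp hσ] at hdet'
      linear_combination -hdet'
    have htr : a + d = 2 ∨ a + d = 1 ∨ a + d = 0 := by
      rw [hRdet1 σ] at hdet1
      rcases zmod_three_cases (LinearMap.det (rep W 3 σ - 1)) with he | he | he <;>
        rw [he] at hdet1 <;> simp only [map_zero, map_one, map_ofNat] at hdet1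
      · left; linear_combination hdet1 + had
      · right; left; linear_combination hdet1 + had
      · right; right; linear_combination hdet1 + had
    have h12 : R σ ^ 12 = 1 := by
      have hpow : ∀ n : ℕ, (R σ ^ n) v = a ^ n • v ∧ (R σ ^ n) w = d ^ n • w := by
        intro n
        induction n with
        | zero => simp
        | succ n ih =>
          simp [pow_succ', Module.End.mul_apply, ih.1, ih.2, ha, hd, smul_smul, mul_comm]
      refine hext _ _ ?_ ?_
      · rw [(hpow 12).1, pow_twelve_eq_one h3K had htr, one_smul, Module.End.one_apply]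
      · rw [(hpow 12).2, pow_twelve_eq_one h3K (a := d) (d := a) (by rw [mul_comm]; exact had)
          (by rwa [add_comm]), one_smul, Module.End.one_apply]
    obtain ⟨N, hN, hσN⟩ := exists_pow_eq_one hΔ hnu σ
    have hRN : R σ ^ N = 1 := by
      show B (rep W 3 σ) ^ N = 1
      rw [← map_pow, hσN, map_one]
    have hgcd := pow_gcd_eq_one.mpr ⟨h12, hRN⟩
    obtain ⟨c, hc⟩ : Nat.gcd 12 N ∣ 4 := by
      have h1 : Nat.gcd 12 N ∣ 4 * 3 := Nat.gcd_dvd_left 12 N
      refine Nat.Coprime.dvd_of_dvd_mul_right ?_ h1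
      refine Nat.Coprime.symm (Nat.prime_three.coprime_iff_not_dvd.mpr fun h => hN ?_)
      exact h.trans (Nat.gcd_dvd_right 12 N)
    rw [hc, pow_mul, hgcd, one_pow]
  have hGone : ∀ σ ∈ G, R σ = 1 := by
    have h2 : ∀ σ ∈ G, R σ * R σ = 1 := fun σ hσ => by
      obtain ⟨τ, hτ, h⟩ := hsquare σ hσ
      rw [h, ← hfour τ hτ]; noncomm_ring
    intro σ hσ
    obtain ⟨τ, hτ, h⟩ := hsquare σ hσ
    rw [h, h2 τ hτ]
  -- hence a stable line
  obtain ⟨x, y, -, hxv, hyw⟩ := hout s hsG
  refine hirr (v + R s v) ?_ fun σ => ⟨1, ?_⟩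
  · intro h0
    have := LinearIndependent.pair_iff.mp hli 1 x (by rw [one_smul, ← hxv]; exact h0)
    exact one_ne_zero this.1
  · rw [one_smul]
    show R σ (v + R s v) = v + R s v
    by_cases hσ : σ ∈ G
    · rw [hGone σ hσ, Module.End.one_apply]
    · have hsσ : s⁻¹ * σ ∈ G := (Subgroup.mul_mem_iff_of_index_two hG).mpr (by
        rw [inv_mem_iff]; tauto)
      rw [show σ = s * (s⁻¹ * σ) by rw [mul_inv_cancel_left], map_mul, hGone _ hsσ, mul_one,
        map_add, ← Module.End.mul_apply, hss1, Module.End.one_apply, add_comm]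

end Fermat.Agent.Lifting.Residual
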