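import Fermat.Agent.EC.Reducible.Character
import Fermat.Agent.EC.Mult.Ramification

/-!
# Transitivity of inertia when all `p`-torsion reduces to the origin

If every `p`-torsion point reduces to the origin at a place over `p`, inertia at that place is
transitive on the nonzero `p`-torsion points up to sign: otherwise the product of the abscissae
of an orbit would have valuation strictly between `1` and `v(p)⁻¹`, but it is fixed by inertia.
-/

set_option autoImplicit false

noncomputable section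

open Polynomial WeierstrassCurve.Affine.Point
open WeierstrassCurve.Affine (Point)
open scoped WeierstrassCurve.Affine

namespace Fermat.Agent.Lifting.Residual

open EC.Reducible

local notation "Qb" => AlgebraicClosure ℚ

/-- A valuation of an element fixed by inertia does not lie strictly between `1` and `v(p)⁻¹`. -/
theorem one_le_mul_valuation_of_inertia_fixed (A : ValuationSubring Qb) {p : ℕ} (hp : p.Prime)
    (hA : A.LiesOverPrime p) {z : Qb} (hz : ∀ σ ∈ A.inertiaSubgroupIn ℚ, σ z = z)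
    (h1 : 1 < A.valuation z) : 1 ≤ A.valuation (p : Qb) * A.valuation z := by
  have hz0 : z ≠ 0 := by rintro rfl; simp at h1
  obtain ⟨k, hk⟩ := EC.Mult.exists_zpow_of_inertia_fixed hp hA hz0 hz
  have hvp : A.valuation (p : Qb) < 1 := EC.Mult.valuation_natCast_lt_one hA
  have hvp0 : 0 < A.valuation (p : Qb) :=
    zero_lt_iff.mpr (EC.Mult.valuation_natCast_ne_zero hp)
  have hk' : k < 0 := by
    by_contra hge
    rw [not_lt] at hge
    rw [hk] at h1
    exact h1.not_ge (zpow_le_one₀ hvp0 hvp.le hge)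
  rw [hk]
  calc (1 : _) = A.valuation (p : Qb) * A.valuation (p : Qb) ^ (-1 : ℤ) := by
        rw [zpow_neg_one, mul_inv_cancel₀ hvp0.ne']
    _ ≤ A.valuation (p : Qb) * A.valuation (p : Qb) ^ k :=
        mul_le_mul' le_rfl (zpow_le_zpow_right_of_le_one₀ hvp0 hvp.le (by omega))

/-- **Inertia is transitive up to sign on torsion reducing to the origin.** -/
theorem exists_smul_eq_or_eq_neg (W : WeierstrassCurve ℤ) (hΔ : W.Δ ≠ 0) {p : ℕ}
    [hp : Fact p.Prime] (hp2 : p ≠ 2) (A : ValuationSubring Qb) (hA : A.LiesOverPrime p)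
    (hall : kernelTors W A = (⊤ : Submodule (ZMod p) (Tors W p)))
    {x₀ y₀ : Tors W p} (hx₀ : x₀ ≠ 0) (hy₀ : y₀ ≠ 0) :
    ∃ σ ∈ A.inertiaSubgroupIn ℚ, σ • x₀ = y₀ ∨ σ • x₀ = -y₀ := by
  classical
  by_contra hcon
  simp only [not_exists, not_and, not_or] at hcon
  let V : WeierstrassCurve.Affine Qb := ((W.map (Int.castRingHom ℚ))⁄Qb).toAffine
  have hVmap : (V : WeierstrassCurve Qb) = W.map (Int.castRingHom Qb) := by
    ext <;> simp [V]
  have hp0 : ((p : ℕ) : ℤ) ≠ 0 := Nat.cast_ne_zero.mpr hp.out.ne_zero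
  have hodd : ¬ Even p := Nat.not_even_iff_odd.mpr (hp.out.odd_of_ne_two hp2)
  have hVΔ : V.Δ ≠ 0 := by
    rw [hVmap, WeierstrassCurve.map_Δ, eq_intCast]
    exact Int.cast_ne_zero.mpr hΔ
  let f : Qb[X] := (W.preΨ' p).map (Int.castRingHom Qb)
  have hVf : V.preΨ' p = f := by rw [hVmap, WeierstrassCurve.map_preΨ']
  have hf0 : f ≠ 0 := by
    show (W.preΨ' p).map _ ≠ 0
    rw [Ne, Polynomial.map_eq_zero_iff Int.cast_injective]
    exact W.preΨ'_ne_zero hp0
  have hlead : f.leadingCoeff = (p : Qb) := by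
    show ((W.preΨ' p).map _).leadingCoeff = _
    rw [Polynomial.leadingCoeff_map_of_injective Int.cast_injective,
      W.leadingCoeff_preΨ' hp0, if_neg hodd]
    simp
  -- every root is not integral
  have hone : ∀ x ∈ f.roots, 1 < A.valuation x := by
    intro x hx
    rw [← not_le, A.valuation_le_one_iff]
    obtain ⟨y, hy⟩ := IsAlgClosed.exists_root
      (C (1 : Qb) * X ^ 2 + C (V.a₁ * x + V.a₃) * X +
        C (-(x ^ 3 + V.a₂ * x ^ 2 + V.a₄ * x + V.a₆)))
      (by rw [degree_quadratic one_ne_zero]; decide)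
    have heq : V.Equation x y := by
      rw [WeierstrassCurve.Affine.equation_iff]
      simp only [IsRoot, eval_add, eval_mul, eval_pow, eval_C, eval_X] at hy
      linear_combination hy
    have hns : V.Nonsingular x y := (V.equation_iff_nonsingular_of_Δ_ne_zero hVΔ).mp heq
    have hP : p • (Point.some x y hns : ((W.map (Int.castRingHom ℚ))⁄Qb).Point) = 0 := by
      refine (EC.nsmul_some_eq_zero_iff hns p).mpr ?_
      rw [V.ΨSq_ofNat, if_neg hodd, mul_one, eval_pow, hVf, (mem_roots'.mp hx).2,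
        zero_pow two_ne_zero]
    let P : Tors W p :=
      ⟨.some x y hns, (Submodule.mem_torsionBy_iff _ _).2 (by rwa [natCast_zsmul])⟩
    have hmem : P ∈ kernelTors W A := hall ▸ Submodule.mem_top
    exact (some_mem_kernelAt_iff W A hns).mp hmem
  have hprod : A.valuation (p : Qb) * (f.roots.map A.valuation).prod ≤ 1 := by
    have h := congrArg A.valuation (IsAlgClosed.splits f).coeff_zero_eq_leadingCoeff_mul_prod_roots
    rw [hlead, map_mul, map_mul, map_pow, A.valuation.map_neg, map_one, one_pow, one_mul,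
      map_multiset_prod] at h
    rw [← h]
    show A.valuation (((W.preΨ' p).map _).coeff 0) ≤ 1
    rw [coeff_map, eq_intCast]
    exact (A.valuation_le_one_iff _).mpr (intCast_mem A _)
  have hmemroot : ∀ P : Tors W p, P ≠ 0 →
      xCoord (P : ((W.map (Int.castRingHom ℚ))⁄Qb).Point) ∈ f.roots := by
    rintro ⟨P, hP⟩ hP0
    obtain _ | ⟨x, y, h⟩ := P
    · exact absurd rfl hP0
    have hP' : p • (Point.some x y h : ((W.map (Int.castRingHom ℚ))⁄Qb).Point) = 0 :=
      nsmul_coe_eq_zero (W := W) ⟨_, hP⟩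
    have h0 := (EC.nsmul_some_eq_zero_iff h p).mp hP'
    rw [V.ΨSq_ofNat, if_neg hodd, mul_one, eval_pow, pow_eq_zero_iff two_ne_zero, hVf] at h0
    exact mem_roots'.mpr ⟨hf0, h0⟩
  have hne : ∀ σ : Qb ≃ₐ[ℚ] Qb, σ • x₀ ≠ 0 := fun σ h => hx₀ (by
    simpa using congrArg (σ⁻¹ • ·) h)
  let O : Finset Qb := f.roots.toFinset.filter fun x => ∃ σ ∈ A.inertiaSubgroupIn ℚ,
    xCoord ((σ • x₀ : Tors W p) : ((W.map (Int.castRingHom ℚ))⁄Qb).Point) = x
  have hO : ∀ x, x ∈ O ↔ ∃ σ ∈ A.inertiaSubgroupIn ℚ,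
      xCoord ((σ • x₀ : Tors W p) : ((W.map (Int.castRingHom ℚ))⁄Qb).Point) = x := by
    intro x
    rw [Finset.mem_filter, and_iff_right_iff_imp]
    rintro ⟨σ, -, rfl⟩
    exact Multiset.mem_toFinset.mpr (hmemroot _ (hne σ))
  have hyO : xCoord (y₀ : ((W.map (Int.castRingHom ℚ))⁄Qb).Point) ∉ O := by
    rw [hO]
    rintro ⟨σ, hσ, hxy⟩
    obtain ⟨h1, h2⟩ := hcon σ hσ
    generalize hR : σ • x₀ = R at h1 h2 hxy
    have hR0 : R ≠ 0 := hR ▸ hne σ
    obtain ⟨R, hRT⟩ := R
    obtain ⟨Q, hQT⟩ := y₀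
    obtain _ | ⟨x, y, h⟩ := R
    · exact hR0 rfl
    obtain _ | ⟨x', y', h'⟩ := Q
    · exact hy₀ rfl
    simp only [xCoord] at hxy
    subst hxy
    rcases WeierstrassCurve.Affine.Y_eq_of_X_eq h.left h'.left rfl with rfl | hy
    · exact h1 rfl
    · refine h2 (Subtype.ext ?_)
      subst hy
      exact (WeierstrassCurve.Affine.Point.neg_some h').symm
  have hx₀O : xCoord (x₀ : ((W.map (Int.castRingHom ℚ))⁄Qb).Point) ∈ O :=
    (hO _).mpr ⟨1, one_mem _, by rw [one_smul]⟩
  have hOpos : 1 < A.valuation (∏ x ∈ O, x) := by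
    rw [map_prod, ← Finset.mul_prod_erase _ _ hx₀O]
    refine lt_of_lt_of_le (hone _ (hmemroot x₀ hx₀)) (le_mul_of_one_le_right zero_le ?_)
    exact Finset.one_le_prod' fun x hx => (hone x (Multiset.mem_toFinset.mp
      (Finset.mem_filter.mp (Finset.mem_of_mem_erase hx)).1)).le
  have hOlt : A.valuation (p : Qb) * A.valuation (∏ x ∈ O, x) < 1 := by
    refine lt_of_lt_of_le (mul_lt_mul_of_pos_left ?_ ?_) hprod
    · have h1 : A.valuation (∏ x ∈ O, x) <
          ∏ x ∈ insert (xCoord (y₀ : ((W.map (Int.castRingHom ℚ))⁄Qb).Point)) O,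
            A.valuation x := by
        rw [map_prod, Finset.prod_insert hyO]
        refine lt_mul_of_one_lt_left ?_ (hone _ (hmemroot y₀ hy₀))
        rw [← map_prod]; exact lt_trans zero_lt_one hOpos
      refine h1.trans_le (le_trans (Finset.prod_le_prod_of_subset_of_one_le'
        (t := f.roots.toFinset) ?_ fun x hx _ => (hone x (Multiset.mem_toFinset.mp hx)).le) ?_)
      · exact Finset.insert_subset (Multiset.mem_toFinset.mpr (hmemroot y₀ hy₀))
          (Finset.filter_subset _ _)
      · rw [Finset.prod_multiset_map_count]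
        refine Finset.prod_le_prod' fun x hx => le_self_pow (hone x
          (Multiset.mem_toFinset.mp hx)).le ?_
        exact (Multiset.count_pos.mpr (Multiset.mem_toFinset.mp hx)).ne'
    · exact zero_lt_iff.mpr (EC.Mult.valuation_natCast_ne_zero hp.out)
  have hfixed : ∀ τ ∈ A.inertiaSubgroupIn ℚ, τ (∏ x ∈ O, x) = ∏ x ∈ O, x := by
    intro τ hτ
    rw [map_prod]
    have hmaps : ∀ x ∈ O, τ x ∈ O := fun x hx => by
      obtain ⟨σ, hσ, rfl⟩ := (hO x).mp hx
      exact (hO _).mpr ⟨τ * σ, mul_mem hτ hσ, by rw [mul_smul]; exact xCoord_smul τ _⟩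
    have himg : O.image (fun x => τ x) = O :=
      Finset.eq_of_subset_of_card_le (Finset.image_subset_iff.mpr hmaps)
        (le_of_eq (Finset.card_image_of_injective _ τ.injective).symm)
    conv_rhs => rw [← himg]
    exact (Finset.prod_image (f := fun z : Qb => z) τ.injective.injOn).symm
  exact (one_le_mul_valuation_of_inertia_fixed A hp.out hA hfixed hOpos).not_gt hOlt

end Fermat.Agent.Lifting.Residual
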