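import Fermat.Agent.Lifting.Residual.TaylorWiles
import Fermat.Agent.BadPrime.TateRep
import Fermat.Agent.EC.Tate.Properties
import Fermat.Agent.Density.PlacesConj

/-!
# The Tate module of a semistable curve as a point of the deformation problem

`tatePoint W p hΔ` is `T_p W` over `ℤ_p`: residual representation `E[p]`, cyclotomic determinant,
unipotent inertia at every `q ≠ p`, a global sign at every bad `q ≠ p`, flat at a good `p`, strictly
ordinary at a multiplicative `p`.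
-/

set_option autoImplicit false
set_option linter.style.haveILetI false

noncomputable section

open Polynomial
open scoped Pointwise

namespace Fermat.Agent.Lifting.Residual

local notation "ℚ̄" => AlgebraicClosure ℚ
local notation "Γℚ" => (AlgebraicClosure ℚ ≃ₐ[ℚ] AlgebraicClosure ℚ)

variable (W : WeierstrassCurve ℤ) (p : ℕ) [hp : Fact p.Prime]

/-- The representation on the `p`-adic Tate module. -/
abbrev tatePoint (hΔ : W.Δ ≠ 0) : GaloisRepAdic ℤ_[p] :=
  haveI := EC.isElliptic_map_rat hΔ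
  EC.tateRep (W.map (Int.castRingHom ℚ)) p

variable {W} {p} (hΔ : W.Δ ≠ 0)

/-- The residual representation of the point is `E[p]`. -/
theorem tatePoint_residual_isEquiv (ψ : ZMod p →+* IsLocalRing.ResidueField ℤ_[p]) :
    (tatePoint W p hΔ).residual.IsEquiv ((torsRep W p hΔ).baseChangeAlong ψ) :=
  haveI := EC.isElliptic_map_rat hΔ
  EC.tateRep_residual_isEquiv (W.map (Int.castRingHom ℚ)) p ψ

theorem tatePoint_detIsCyclotomic : (tatePoint W p hΔ).DetIsCyclotomic p :=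
  EC.tateRep_detIsCyclotomic hΔ p

theorem tatePoint_isUnramifiedAt {q : ℕ} (hq : q.Prime) (hgood : W.IsGoodPrimeFor q)
    (hqp : q ≠ p) : (tatePoint W p hΔ).IsUnramifiedAt q :=
  EC.tateRep_isUnramifiedAt hΔ p hq hgood hqp

theorem tatePoint_isUnipotentOnInertiaAt (hss : W.IsSemistableModel) {q : ℕ} (hq : q.Prime)
    (hqp : q ≠ p) : (tatePoint W p hΔ).IsUnipotentOnInertiaAt q :=
  BadPrime.tateRep_isUnipotentOnInertiaAt W p hΔ hss hq hqp

theorem tatePoint_charpoly_frobenius {l : ℕ} (hl : l.Prime) (hlp : l ≠ p)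
    (hgood : W.IsGoodPrimeFor l) {A : ValuationSubring ℚ̄} (hA : A.LiesOverPrime l) {σ : Γℚ}
    (hσ : A.IsFrobeniusAt σ l) :
    LinearMap.charpoly ((tatePoint W p hΔ).ρ σ) =
      X ^ 2 - C ((W.apOfModel l : ℤ_[p])) * X + C ((l : ℤ_[p])) :=
  BadPrime.tateRep_charpoly_frobenius W p hΔ hl hlp hgood hA hσ

theorem tatePoint_isFlatAt (hgood : W.IsGoodPrimeFor p) : (tatePoint W p hΔ).IsFlatAt p :=
  haveI := EC.isElliptic_map_rat hΔ
  EC.tateRep_isFlatAt W hgood

theorem tatePoint_isStrictOrdinaryAt (hss : W.IsSemistableModel) (hbad : (p : ℤ) ∣ W.Δ) :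
    (tatePoint W p hΔ).IsStrictOrdinaryAt p :=
  EC.tateRep_isStrictOrdinaryAt_of_mult hΔ p hbad (hss p hp.out hbad)

/-- Frobenius elements at one multiplicative place have the same characteristic polynomial. -/
theorem charpoly_frobenius_eq_at_place {q : ℕ} (hq : q.Prime) (hqp : q ≠ p)
    (hbad : (q : ℤ) ∣ W.Δ) (hc4 : ¬ (q : ℤ) ∣ W.c₄) {A : ValuationSubring ℚ̄}
    (hA : A.LiesOverPrime q) {σ φ : Γℚ} (hσ : A.IsFrobeniusAt σ q) (hφ : A.IsFrobeniusAt φ q) :
    LinearMap.charpoly ((tatePoint W p hΔ).ρ φ) = LinearMap.charpoly ((tatePoint W p hΔ).ρ σ) := by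
  haveI := EC.isElliptic_map_rat hΔ
  obtain ⟨b, hD, hI, hchar⟩ := EC.exists_tateLine W p hq hΔ hbad hc4 A hA
  obtain ⟨x, z, -, -, hz, -, hpoly, hx⟩ := hchar σ hσ.mem_decompositionSubgroup
  obtain ⟨x', z', -, -, hz', -, hpoly', hx'⟩ := hchar φ hφ.mem_decompositionSubgroup
  set R := (EC.tateRep (W.map (Int.castRingHom ℚ)) p).ρ with hR
  have hzz : z' = z := by
    set t := σ⁻¹ * φ with ht
    have e : φ = σ * t := by rw [ht]; group
    have h1 : R φ (b 1) - z • b 1 ∈ ℤ_[p] ∙ b 0 := by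
      rw [e, map_mul]
      have h2 := hD σ hσ.mem_decompositionSubgroup _
        (hI t (Density.inv_mul_mem_inertiaSubgroupIn hσ hφ) (b 1))
      have h3 := Submodule.add_mem _ h2 (hz (b 1))
      rw [map_sub] at h3
      convert h3 using 1
      rw [Module.End.mul_apply]
      abel
    have h4 := Submodule.sub_mem _ (hz' (b 1)) h1
    rw [sub_sub_sub_cancel_left, ← sub_smul] at h4
    obtain ⟨r, hr⟩ := Submodule.mem_span_singleton.mp h4
    have h' := congrArg (fun v => b.repr v 1) hr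
    simp at h'
    exact (sub_eq_zero.mp h'.symm).symm
  have hval : ∀ (ψ : Γℚ) (y w : ℤ_[p]), A.IsFrobeniusAt ψ q →
      (p ≠ q → ∀ n a : ℕ, (∀ μ : ℚ̄, μ ^ p ^ n = 1 → ψ μ = μ ^ a) →
        PadicInt.toZModPow n y = PadicInt.toZModPow n ((a : ℤ_[p]) * w)) →
      y = (q : ℤ_[p]) * w := by
    intro ψ y w hψ hy
    refine PadicInt.ext_of_toZModPow.1 fun n => hy hqp.symm n q fun μ hμ => ?_
    have : NeZero (p ^ n) := ⟨pow_ne_zero n hp.out.ne_zero⟩
    rw [EC.apply_eq_pow_cycloChar (p ^ n) ψ hμ, EC.cycloChar_eq_of_isFrobeniusAt hq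
      (fun h => hqp ((Nat.prime_dvd_prime_iff_eq hq hp.out).1 (hq.dvd_of_dvd_pow h))) hA hψ,
      ZMod.val_natCast]
    exact (pow_eq_pow_mod q hμ).symm
  change LinearMap.charpoly (R φ) = LinearMap.charpoly (R σ)
  rw [hpoly, hpoly', hval σ x z hσ hx, hval φ x' z' hφ hx', hzz]

/-- At a bad `q ≠ p` there is one sign `z` with every Frobenius at `q` of characteristic polynomial
`(X - q z)(X - z)`. -/
theorem tatePoint_exists_sign (hss : W.IsSemistableModel) {q : ℕ} (hq : q.Prime) (hqp : q ≠ p)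
    (hbad : (q : ℤ) ∣ W.Δ) :
    ∃ z : ℤ, (z = 1 ∨ z = -1) ∧ ∀ (A : ValuationSubring ℚ̄) (σ : Γℚ), A.LiesOverPrime q →
      A.IsFrobeniusAt σ q → LinearMap.charpoly ((tatePoint W p hΔ).ρ σ) =
        (X - C ((q : ℤ_[p]) * (z : ℤ_[p]))) * (X - C ((z : ℤ_[p]))) := by
  haveI := EC.isElliptic_map_rat hΔ
  obtain ⟨A₀, σ₀, hA₀, hσ₀⟩ := Galois.exists_valuationSubring_isFrobeniusAt hq
  obtain ⟨z, hz, hpoly⟩ :=
    EC.tateRep_charpoly_frobenius_mult W p hq hqp hΔ hbad (hss q hq hbad) A₀ hA₀ hσ₀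
  obtain ⟨z', hz', hzz⟩ : ∃ z' : ℤ, (z' = 1 ∨ z' = -1) ∧ (z' : ℤ_[p]) = z := by
    rcases hz with rfl | rfl
    · exact ⟨1, Or.inl rfl, Int.cast_one⟩
    · exact ⟨-1, Or.inr rfl, by simp⟩
  refine ⟨z', hz', fun A σ hA hσ => ?_⟩
  rw [hzz, ← hpoly]
  obtain ⟨a, rfl⟩ := Density.exists_smul_eq hq hA₀ hA
  have hσ' : A₀.IsFrobeniusAt (a⁻¹ * σ * a) q := by
    have := Density.isFrobeniusAt_conj hσ a⁻¹
    have h2 : a⁻¹ • a • A₀ = A₀ := inv_smul_smul a A₀
    rwa [h2, inv_inv] at this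
  refine Eq.trans ?_
    (charpoly_frobenius_eq_at_place hΔ hq hqp hbad (hss q hq hbad) hA₀ hσ₀ hσ')
  let b := EC.tateRepBasis (W.map (Int.castRingHom ℚ)) p
  rw [show σ = a * (a⁻¹ * σ * a) * a⁻¹ by group]
  set φ := a⁻¹ * σ * a with hφ
  rw [show a⁻¹ * (a * φ * a⁻¹) * a = φ by group, map_mul, map_mul,
    ← LinearMap.charpoly_toMatrix _ b, ← LinearMap.charpoly_toMatrix ((tatePoint W p hΔ).ρ φ) b,
    LinearMap.toMatrix_mul, Matrix.charpoly_mul_comm, ← LinearMap.toMatrix_mul, ← mul_assoc,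
    ← map_mul, inv_mul_cancel, map_one, one_mul]

end Fermat.Agent.Lifting.Residual
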